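import Fermat.Agent.S59.LoSqC.H862.NodeRel

/-!
# S59 / cell (C) LO-SQ / W-COUNT, sub-leaf NODE-REL — CARD form, generic in `F` (helper862)

Level `q M'`, `q ∤ M'`, `A` over `q`, `E = ℚ̄^I` the inertia field of `A` (uniformiser `q`),
thickness one at the nodes of the finite chart as a hypothesis (`Th1At`).

* `HasSlopeZeroGen m q M' A x` : the class `x ∈ J₀(q M')` has an `E`-rational Kummer generator
  (exponent `m`) whose branch valuations along the two components of the special fibre of the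
  finite chart are congruent modulo `m` ("E-slope zero").
* `card_le_mul_of_slope862` (Mathlib only) : a slope function `c : I → ℤ` with `m ∣ s · c x` and
  "`c x ≡ c y mod m` ⟹ `x - y ∈ F`" gives `|I| ≤ s · |F ⊓ I|`.
* `exists_chart_vert862` : a semistable chart structure on the finite chart, with existence and
  multiplicativity of the branch valuations.
* `exists_slopeGen862` : every inertia-fixed `m`-torsion class has an `E`-rational Kummer
  generator with branch valuations on that chart.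
* **`nodeRel_card_th1`** : for EVERY `m > 0`, every subgroup `I` of inertia-fixed `m`-torsion
  classes and every subgroup `F` containing the classes of `I` with `HasSlopeZeroGen`:

    `Nat.card I ≤ ((q - 1) · ψ(M')) · Nat.card ↥(F ⊓ I)`.

  (`F = H158.WallQ.finPartQ m q M' A` is allowed, by helper34's `mem_finSetQ_of_slopeZero_h34`;
  `F` = the subgroup generated by the slope-zero classes is allowed trivially.)
-/

set_option autoImplicit false
set_option linter.unusedSectionVars false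
set_option linter.unusedVariables false
set_option linter.style.haveILetI false
set_option synthInstance.maxHeartbeats 400000
set_option maxHeartbeats 1600000

noncomputable section

open AlgebraicCurve

namespace Fermat.Agent.S59.LoSqC.H862

/-! ## The abstract count -/

section Abs

/-- The tag of a slope: `((c mod m) · s) / m ∈ [0, s)`. -/
def slopeTag862 (m s : ℕ) (c : ℤ) : ℕ := ((c % (m : ℤ)).toNat * s) / m

theorem slopeTag862_lt {m s : ℕ} (hm : 0 < m) (hs : 0 < s) (c : ℤ) : slopeTag862 m s c < s := by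
  have hm' : (0 : ℤ) < m := by exact_mod_cast hm
  have h1 : 0 ≤ c % (m : ℤ) := Int.emod_nonneg c hm'.ne'
  have h2 : c % (m : ℤ) < m := Int.emod_lt_of_pos c hm'
  have h3 : (c % (m : ℤ)).toNat < m := by omega
  unfold slopeTag862
  rw [Nat.div_lt_iff_lt_mul hm]
  calc (c % (m : ℤ)).toNat * s < m * s := Nat.mul_lt_mul_of_pos_right h3 hs
    _ = s * m := Nat.mul_comm _ _

theorem dvd_toNat_mul862 {m s : ℕ} (hm : 0 < m) {c : ℤ} (h : (m : ℤ) ∣ (s : ℤ) * c) :
    m ∣ (c % (m : ℤ)).toNat * s := by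
  have hm' : (0 : ℤ) < m := by exact_mod_cast hm
  have h1 : 0 ≤ c % (m : ℤ) := Int.emod_nonneg c hm'.ne'
  have h2 : (m : ℤ) ∣ (c % (m : ℤ)) * s := by
    have e : c % (m : ℤ) = c - (m : ℤ) * (c / (m : ℤ)) := by
      have := Int.emod_add_mul_ediv c (m : ℤ)
      linarith
    rw [e, sub_mul]
    refine dvd_sub ?_ ⟨c / (m : ℤ) * s, by ring⟩
    rw [mul_comm]
    exact h
  have h3 : (m : ℤ) ∣ (((c % (m : ℤ)).toNat * s : ℕ) : ℤ) := by
    push_cast
    rw [Int.toNat_of_nonneg h1]
    exact h2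
  exact Int.natCast_dvd_natCast.mp h3

theorem dvd_sub_of_slopeTag862_eq {m s : ℕ} (hm : 0 < m) (hs : 0 < s) {c c' : ℤ}
    (h : (m : ℤ) ∣ (s : ℤ) * c) (h' : (m : ℤ) ∣ (s : ℤ) * c')
    (he : slopeTag862 m s c = slopeTag862 m s c') : (m : ℤ) ∣ c - c' := by
  have hm' : (0 : ℤ) < m := by exact_mod_cast hm
  have d1 := dvd_toNat_mul862 hm h
  have d2 := dvd_toNat_mul862 hm h'
  unfold slopeTag862 at he
  have e1 : (c % (m : ℤ)).toNat * s = (c' % (m : ℤ)).toNat * s := by
    rw [← Nat.div_mul_cancel d1, ← Nat.div_mul_cancel d2, he]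
  have e2 : (c % (m : ℤ)).toNat = (c' % (m : ℤ)).toNat := Nat.eq_of_mul_eq_mul_right hs e1
  have h1 : 0 ≤ c % (m : ℤ) := Int.emod_nonneg c hm'.ne'
  have h1' : 0 ≤ c' % (m : ℤ) := Int.emod_nonneg c' hm'.ne'
  have e3 : c % (m : ℤ) = c' % (m : ℤ) := by omega
  exact Int.ModEq.dvd (e3.symm : c' ≡ c [ZMOD (m : ℤ)])

/-- **The count.**  A slope function on `I` with values killed by `s` modulo `m`, whose fibres
modulo `m` lie in cosets of `F`: then `|I| ≤ s · |F ⊓ I|`. -/
theorem card_le_mul_of_slope862 {G : Type*} [AddCommGroup G] (I F : AddSubgroup G) (m : ℕ)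
    (hm : 0 < m) (s : ℕ) (hs : 0 < s) (c : I → ℤ) (hc : ∀ x, (m : ℤ) ∣ (s : ℤ) * c x)
    (hsub : ∀ x y : I, (m : ℤ) ∣ c x - c y → (x : G) - (y : G) ∈ F) :
    Nat.card I ≤ s * Nat.card ↥(F ⊓ I) := by
  classical
  have h1 : Nat.card I = Nat.card (I ⧸ F.addSubgroupOf I) * Nat.card (F.addSubgroupOf I) :=
    AddSubgroup.card_eq_card_quotient_mul_card_addSubgroup (F.addSubgroupOf I)
  have h2 : Nat.card (F.addSubgroupOf I) = Nat.card ↥(F ⊓ I) := by
    have e : (F ⊓ I).addSubgroupOf I = F.addSubgroupOf I :=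
      AddSubgroup.inf_addSubgroupOf_right F I
    rw [← e]
    exact Nat.card_congr (AddSubgroup.addSubgroupOfEquivOfLe (inf_le_right : F ⊓ I ≤ I)).toEquiv
  have h3 : Nat.card (I ⧸ F.addSubgroupOf I) ≤ s := by
    let T : I ⧸ F.addSubgroupOf I → Fin s := fun z =>
      ⟨slopeTag862 m s (c (Quotient.out z)), slopeTag862_lt hm hs _⟩
    have hT : Function.Injective T := by
      intro z z' hzz
      have he : slopeTag862 m s (c (Quotient.out z)) = slopeTag862 m s (c (Quotient.out z')) :=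
        congrArg Fin.val hzz
      have hd := dvd_sub_of_slopeTag862_eq hm hs (hc _) (hc _) he
      have hmem := hsub _ _ hd
      have hq : (QuotientAddGroup.mk (Quotient.out z) : I ⧸ F.addSubgroupOf I) =
          QuotientAddGroup.mk (Quotient.out z') := by
        rw [QuotientAddGroup.eq, AddSubgroup.mem_addSubgroupOf]
        have e : ((-(Quotient.out z) + Quotient.out z' : I) : G) =
            -(((Quotient.out z : I) : G) - ((Quotient.out z' : I) : G)) := by
          push_cast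
          abel
        rw [e]
        exact F.neg_mem hmem
      have ez : (QuotientAddGroup.mk (Quotient.out z) : I ⧸ F.addSubgroupOf I) = z :=
        Quotient.out_eq z
      have ez' : (QuotientAddGroup.mk (Quotient.out z') : I ⧸ F.addSubgroupOf I) = z' :=
        Quotient.out_eq z'
      rw [← ez, ← ez', hq]
    have := Nat.card_le_card_of_injective T hT
    rwa [Nat.card_fin] at this
  rw [h1, h2]
  exact Nat.mul_le_mul_right _ h3

end Abs

/-! ## Branch valuations on a chart -/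

section AlgChart

open IsLocalRing Fermat.Agent.Ribet.H704 Fermat.Agent.A2 Fermat.Agent.A2.Alg.H132
open Fermat.Agent.A2.H849 Fermat.Agent.A2.H609
open Fermat.Agent.A2.Alg Fermat.Agent.A2.Alg.H609

variable {R E F : Type} [CommRing R] [IsDomain R] [IsDiscreteValuationRing R]
  [Field E] [CharZero E] [Algebra R E] [IsFractionRing R E]
  [Field F] [Algebra E F] [Algebra R F] [IsScalarTower R E F]

/-- Branch valuations of a quotient on a chart. -/
theorem valAt_mul_inv_chart862
    (w : R) (x : F) (B : Subalgebra R F) (hB : ChartCtx E w x B) (c : SSChart w B)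
    (f g : F) (v₁ w₁ v₂ w₂ : ℤ)
    (hf₁ : I6.ValAt F c.p₁ (algebraMap R B w) f v₁) (hg₁ : I6.ValAt F c.p₁ (algebraMap R B w) g w₁)
    (hf₂ : I6.ValAt F c.p₂ (algebraMap R B w) f v₂)
    (hg₂ : I6.ValAt F c.p₂ (algebraMap R B w) g w₂) :
    I6.ValAt F c.p₁ (algebraMap R B w) (f * g⁻¹) (v₁ - w₁) ∧
      I6.ValAt F c.p₂ (algebraMap R B w) (f * g⁻¹) (v₂ - w₂) := by
  obtain ⟨hnoeth, hic, hfrac⟩ := H34.chart_instances' w x B hB
  have hp₁ : c.p₁.IsPrime := c.prime₁
  have hp₂ : c.p₂.IsPrime := c.prime₂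
  have hw0 : algebraMap R B w ≠ 0 :=
    Fermat.Agent.A2.H609.ne_zero_of_inf_eq_span c.p₁ c.p₂ c.inf_eq c.not_le₁₂ c.not_le₂₁
  have hV₁ : VertData (algebraMap R B w) c.p₁ c.p₂ := ⟨c.prime₁, hw0, c.not_le₂₁, c.inf_eq⟩
  have hV₂ : VertData (algebraMap R B w) c.p₂ c.p₁ :=
    ⟨c.prime₂, hw0, c.not_le₁₂, by rw [inf_comm]; exact c.inf_eq⟩
  constructor
  · have h := Fermat.Agent.Ribet.H132.valAt_mul (K := F) hV₁ hf₁
      (Fermat.Agent.Ribet.H132.valAt_inv (K := F) hV₁ hg₁)
    rwa [← sub_eq_add_neg] at h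
  · have h := Fermat.Agent.Ribet.H132.valAt_mul (K := F) hV₂ hf₂
      (Fermat.Agent.Ribet.H132.valAt_inv (K := F) hV₂ hg₂)
    rwa [← sub_eq_add_neg] at h

end AlgChart

/-! ## The level `M q` -/

section Level

open ModularCurve HahnSeries
open Fermat.Agent.S24 Fermat.Agent.Ribet.H884 Fermat.Agent.Ribet.H158.WallQ
open Fermat.Agent.A2.Mod Fermat.Agent.Ribet.H868
open Fermat.Agent.Ribet.H704 (I6.ValAt)
open Fermat.Agent.A2.T1.H669 (iota)
open Fermat.Agent.A2.IF.H429 (inertiaField)

section Chart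

variable (A : ValuationSubring (AlgebraicClosure ℚ))
  (E : IntermediateField ℚ (AlgebraicClosure ℚ)) (M q : ℕ) [NeZero M] [NeZero q]

/-- **A semistable chart structure on the finite chart with its branch valuations**: existence
of the valuations of every nonzero function and their behaviour under quotients. -/
theorem exists_chart_vert862 (w : RE A E) (hS : Setting A E M q w) (hE : A2.GoodField A E)
    (hAux : S35.G.HasAux M q) :
    ∃ cf : A2.SSChart w (chartAlg A E (M * q) (xE E M q)),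
      (∀ f : FE E (M * q), f ≠ 0 → ∃ v₁ v₂ : ℤ,
        I6.ValAt (FE E (M * q)) cf.p₁
          (algebraMap ↥(RE A E) ↥(chartAlg A E (M * q) (xE E M q)) w) f v₁ ∧
        I6.ValAt (FE E (M * q)) cf.p₂
          (algebraMap ↥(RE A E) ↥(chartAlg A E (M * q) (xE E M q)) w) f v₂) ∧
      (∀ (f g : FE E (M * q)) (v₁ w₁ v₂ w₂ : ℤ),
        I6.ValAt (FE E (M * q)) cf.p₁
          (algebraMap ↥(RE A E) ↥(chartAlg A E (M * q) (xE E M q)) w) f v₁ →
        I6.ValAt (FE E (M * q)) cf.p₁
          (algebraMap ↥(RE A E) ↥(chartAlg A E (M * q) (xE E M q)) w) g w₁ →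
        I6.ValAt (FE E (M * q)) cf.p₂
          (algebraMap ↥(RE A E) ↥(chartAlg A E (M * q) (xE E M q)) w) f v₂ →
        I6.ValAt (FE E (M * q)) cf.p₂
          (algebraMap ↥(RE A E) ↥(chartAlg A E (M * q) (xE E M q)) w) g w₂ →
        I6.ValAt (FE E (M * q)) cf.p₁
            (algebraMap ↥(RE A E) ↥(chartAlg A E (M * q) (xE E M q)) w) (f * g⁻¹) (v₁ - w₁) ∧
          I6.ValAt (FE E (M * q)) cf.p₂
            (algebraMap ↥(RE A E) ↥(chartAlg A E (M * q) (xE E M q)) w) (f * g⁻¹) (v₂ - w₂)) := by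
  haveI : IsDiscreteValuationRing ↥(RE A E) := hS.dvr
  have hq : q.Prime := hS.q_prime
  obtain ⟨V, W, VM, hV, hW, hVM, hg1, hg2, hDeg, cf, ci, hcf, hci⟩ :=
    S35.G.H862.modelNoSep A E M q w hS hE hAux
  obtain ⟨hx, hfr, hconst⟩ := hDeg hq hS.q_not_dvd
  have hpos : 0 < Module.finrank
      (IntermediateField.adjoin E ({xE E M q} : Set (FE E (M * q))))
      (FE E (M * q)) := by
    rw [hfr]
    have h1 := dedekindPsi_pos_of_ne_zero M (NeZero.ne M)
    positivity
  have hfin : FiniteDimensional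
      (IntermediateField.adjoin E ({xE E M q} : Set (FE E (M * q))))
      (FE E (M * q)) := Module.finite_of_finrank_pos hpos
  have hB : A2.Alg.ChartCtx E w (xE E M q) (chartAlg A E (M * q) (xE E M q)) :=
    ⟨hS.unif, hx, hfin, hconst, fun _ => Iff.rfl⟩
  refine ⟨cf, fun f hf => ?_, fun f g v₁ w₁ v₂ w₂ h1 h2 h3 h4 => ?_⟩
  · exact exists_valAt_chart (E := E) w (xE E M q) (chartAlg A E (M * q) (xE E M q)) hB cf f hf
  · exact valAt_mul_inv_chart862 (E := E) w (xE E M q) (chartAlg A E (M * q) (xE E M q)) hB cf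
      f g v₁ w₁ v₂ w₂ h1 h2 h3 h4

end Chart

variable (m q M' : ℕ) [NeZero M'] [NeZero q] [NeZero (q * M')]

/-- The class `x ∈ J₀(q M')` has an `E`-rational Kummer generator of exponent `m` (`E` the
inertia field of `A`) with **slope zero modulo `m`**: its branch valuations along the two
components of the special fibre of the finite chart of level `M' q` are congruent modulo `m`. -/
def HasSlopeZeroGen (A : ValuationSubring Kbar) (x : JZero (q * M')) : Prop :=
  ∃ (g : FE (inertiaField A) (M' * q))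
    (cf : A2.SSChart ((q : ℕ) : RE A (inertiaField A))
      (chartAlg A (inertiaField A) (M' * q) (xE (inertiaField A) M' q)))
    (v₁ v₂ : ℤ), g ≠ 0 ∧ A2.DivisibleDiv (inertiaField A) m g ∧
      IsKummerGen (q * M') m (toFF (inertiaField A) (Nat.mul_comm M' q) g) x ∧
      I6.ValAt (FE (inertiaField A) (M' * q)) cf.p₁
        (algebraMap ↥(RE A (inertiaField A))
          ↥(chartAlg A (inertiaField A) (M' * q) (xE (inertiaField A) M' q))
          ((q : ℕ) : RE A (inertiaField A))) g v₁ ∧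
      I6.ValAt (FE (inertiaField A) (M' * q)) cf.p₂
        (algebraMap ↥(RE A (inertiaField A))
          ↥(chartAlg A (inertiaField A) (M' * q) (xE (inertiaField A) M' q))
          ((q : ℕ) : RE A (inertiaField A))) g v₂ ∧
      (m : ℤ) ∣ v₁ - v₂

/-- Every inertia-fixed `m`-torsion class has an `E`-rational Kummer generator at level `M' q`
(`E` the inertia field). -/
theorem exists_slopeGen862 (A : ValuationSubring Kbar) (x : JZero (q * M')) (hx : m • x = 0)
    (hfix : ∀ σ ∈ A.inertiaSubgroupIn ℚ, σ • x = x) :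
    ∃ g : FE (inertiaField A) (M' * q), g ≠ 0 ∧ A2.DivisibleDiv (inertiaField A) m g ∧
      IsKummerGen (q * M') m (toFF (inertiaField A) (Nat.mul_comm M' q) g) x := by
  obtain ⟨y, hy0, hkum, hdiv⟩ := exists_fixed_kummerGen (q * M') m A x hx hfix
  refine ⟨castLevelE (inertiaField A) (Nat.mul_comm q M') y, ?_, ?_, ?_⟩
  · exact (map_ne_zero_iff _ (castLevelE (inertiaField A) (Nat.mul_comm q M')).injective).mpr hy0
  · exact divisibleDiv_castLevelE (inertiaField A) (Nat.mul_comm q M') m y hdiv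
  · rw [toFF_castLevelE (inertiaField A) (Nat.mul_comm M' q) y]
    exact hkum

/-- **NODE-REL, card form, every exponent `m`**, generic in the subgroup `F`. -/
theorem nodeRel_card_th1 (hm : 0 < m) (hq : q.Prime) (hqM : ¬ q ∣ M')
    (hAux : S35.G.HasAux M' q) (A : ValuationSubring Kbar) (hA : A.LiesOverPrime q)
    (hTh1 : Th1At A (inertiaField A) M' q ((q : ℕ) : RE A (inertiaField A)))
    (F I : AddSubgroup (JZero (q * M'))) (hI : ∀ x ∈ I, m • x = 0)
    (hfix : ∀ x ∈ I, ∀ σ ∈ A.inertiaSubgroupIn ℚ, σ • x = x)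
    (hF : ∀ z ∈ I, HasSlopeZeroGen m q M' A z → z ∈ F) :
    Nat.card I ≤ ((q - 1) * dedekindPsi M') * Nat.card ↥(F ⊓ I) := by
  have hE : A2.GoodField A (inertiaField A) := goodField_inertiaField A q hq hA
  have hS : Setting A (inertiaField A) M' q ((q : ℕ) : RE A (inertiaField A)) :=
    setting_inertiaField A q M' hq hqM (NeZero.ne M') hA
  have hwq : ((((q : ℕ) : RE A (inertiaField A)) : inertiaField A)) = (q : inertiaField A) := by
    simp
  obtain ⟨cf, hex, hmul⟩ := exists_chart_vert862 A (inertiaField A) M' q _ hS hE hAux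
  have key : ∀ x : I, ∃ (g : FE (inertiaField A) (M' * q)) (v₁ v₂ : ℤ), g ≠ 0 ∧
      A2.DivisibleDiv (inertiaField A) m g ∧
      IsKummerGen (q * M') m (toFF (inertiaField A) (Nat.mul_comm M' q) g) (x : JZero (q * M')) ∧
      I6.ValAt (FE (inertiaField A) (M' * q)) cf.p₁
        (algebraMap ↥(RE A (inertiaField A))
          ↥(chartAlg A (inertiaField A) (M' * q) (xE (inertiaField A) M' q))
          ((q : ℕ) : RE A (inertiaField A))) g v₁ ∧
      I6.ValAt (FE (inertiaField A) (M' * q)) cf.p₂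
        (algebraMap ↥(RE A (inertiaField A))
          ↥(chartAlg A (inertiaField A) (M' * q) (xE (inertiaField A) M' q))
          ((q : ℕ) : RE A (inertiaField A))) g v₂ := by
    intro x
    obtain ⟨g, hg0, hgdiv, hgK⟩ := exists_slopeGen862 m q M' A (x : JZero (q * M'))
      (hI x x.2) (hfix x x.2)
    obtain ⟨v₁, v₂, h1, h2⟩ := hex g hg0
    exact ⟨g, v₁, v₂, hg0, hgdiv, hgK, h1, h2⟩
  choose g v₁ v₂ hg0 hgdiv hgK hv₁ hv₂ using key
  have hs : 0 < (q - 1) * dedekindPsi M' :=
    Nat.mul_pos (Nat.sub_pos_of_lt hq.one_lt) (dedekindPsi_pos_of_ne_zero M' (NeZero.ne M'))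
  refine card_le_mul_of_slope862 I F m hm _ hs (fun x => v₁ x - v₂ x) (fun x => ?_)
    (fun x y hxy => ?_)
  · have hdivK : ∀ v : Place Kbar (FF (q * M')),
        (m : ℤ) ∣ v.ord (toFF (inertiaField A) (Nat.mul_comm M' q) (g x)) := by
      obtain ⟨-, D, -, hD⟩ := hgK x
      exact fun v => ⟨_, hD v⟩
    exact nodeRelE m q M' hm hq hqM hAux A hA (inertiaField A) _ hS hE hwq hTh1 cf (g x) (hg0 x)
      (hgdiv x) hdivK (v₁ x) (v₂ x) (hv₁ x) (hv₂ x)
  · have hmem : (x : JZero (q * M')) - (y : JZero (q * M')) ∈ I := I.sub_mem x.2 y.2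
    refine hF _ hmem ⟨g x * (g y)⁻¹, cf, v₁ x - v₁ y, v₂ x - v₂ y,
      mul_ne_zero (hg0 x) (inv_ne_zero (hg0 y)), ?_, ?_, ?_, ?_, ?_⟩
    · exact Fermat.Agent.A2.Alg.H34.divisibleDiv_mul_inv m (g x) (g y) (hgdiv x) (hgdiv y)
    · rw [map_mul, map_inv₀, sub_eq_add_neg]
      exact (hgK x).mul (hgK y).inv
    · exact (hmul (g x) (g y) (v₁ x) (v₁ y) (v₂ x) (v₂ y) (hv₁ x) (hv₁ y) (hv₂ x) (hv₂ y)).1
    · exact (hmul (g x) (g y) (v₁ x) (v₁ y) (v₂ x) (v₂ y) (hv₁ x) (hv₁ y) (hv₂ x) (hv₂ y)).2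
    · have e : v₁ x - v₁ y - (v₂ x - v₂ y) = (v₁ x - v₂ x) - (v₁ y - v₂ y) := by ring
      rw [e]
      exact hxy

end Level

end Fermat.Agent.S59.LoSqC.H862

end
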