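import Fermat.Agent.S59.LoSqC.H862.NodeRelAbs
import Fermat.Agent.Ribet.H868.CoreOutQ
import Fermat.Agent.Ribet.H644.CuspPurityQGood
import Fermat.Agent.Ribet.H997.RedField
import Fermat.Agent.Ribet.H939.ResField
import Fermat.Agent.S37.H868.FullC
import Fermat.Agent.S36.H438.UnitRed
import Fermat.Agent.Lib.RR.H623.Zeros

/-!
# S59 / cell (C) LO-SQ / W-COUNT, sub-leaf NODE-REL — the degree glue (helper862)

Level `q M'`, `q ∤ M'`, `A` over `q`, `k` the residue field of `A`, `F_k = k(X₀(M'))`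
(`modularFunctionFieldFullC k M'`), `D = Δ(t^q)/Δ(t)` the modular unit (`H868.unitFF`).

* `dvd_mul_of_cusp_orders` (abstract, Prelude `Place` + `HasPrincipalDivisors`): if `h ∈ F_kˣ` has
  `m ∣ ord_Q h` at the places where `j` is regular and `ord_Q h ≡ c · ord_Q j mod m` at the poles
  of `j`, then `m ∣ c · [F_k : k(j)]`  (the degree of a principal divisor is zero);
* `isRedInf_unitFF_inv` : the reduction of `D⁻¹ = Δ(t)/Δ(t^q)` on `C∞` is `H̄(j)`, `H` the Hasse
  polynomial (`S36.H438.hassePoly`, monic of degree `q - 1`);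
* **`slopeRel_of_nodeGen`** : `f, G ∈ F̄^×` with `m ∣ div f`, `G · D^b = f^n · D^a`, and the
  reduction of `G` on `C∞` with `m`-divisible orders at the non-cuspidal places (`H884.PDivFin`,
  one half of `H158.WallQ.NodeGenQ`)  ⟹  `m ∣ (a - b) · (q - 1) · ψ(M')`.
  No condition on `m`, `n`.
-/

set_option autoImplicit false
set_option linter.unusedSectionVars false
set_option linter.unusedVariables false
set_option linter.style.haveILetI false
set_option synthInstance.maxHeartbeats 400000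
set_option maxHeartbeats 1600000

noncomputable section

open AlgebraicCurve

namespace Fermat.Agent.S59.LoSqC.H862

section Abs

open Fermat.Agent.Lib.RR

variable {k κ : Type*} [Field k] [Field κ] [Algebra k κ]

/-- **Degree glue, abstract form.** -/
theorem dvd_mul_of_cusp_orders (hpd : HasPrincipalDivisors k κ)
    (hdeg : ∀ v : Place k κ, v.deg = 1) (j : κ) (hj : j ≠ 0) (ψ : ℤ)
    (hψ : ∀ D : Divisor k κ, (∀ P, D P = P.ord j⁻¹) → ∑ P ∈ D.support, max (D P) 0 = ψ)
    {h : κ} (hh : h ≠ 0) (m : ℕ) (c : ℤ)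
    (hfin : ∀ Q : Place k κ, 0 ≤ Q.ord j → (m : ℤ) ∣ Q.ord h)
    (hcusp : ∀ Q : Place k κ, Q.ord j < 0 → (m : ℤ) ∣ Q.ord h - c * Q.ord j) :
    (m : ℤ) ∣ c * ψ := by
  classical
  obtain ⟨S₀, -, hsum⟩ := sum_ord_eq_zero_of_support hpd hdeg hh
  obtain ⟨D, hD, -⟩ := hpd.exists_divisor j⁻¹ (inv_ne_zero hj)
  have h0 := hsum (S₀ ∪ D.support) Finset.subset_union_left
  have hψ' := hψ D hD
  have h1 : (m : ℤ) ∣ ∑ v ∈ S₀ ∪ D.support, (v.ord h + c * max (D v) 0) := by
    refine Finset.dvd_sum fun v _ => ?_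
    rw [hD, Place.ord_inv]
    by_cases hv : 0 ≤ v.ord j
    · rw [max_eq_right (by omega), mul_zero, add_zero]
      exact hfin v hv
    · have hv' : v.ord j < 0 := not_le.mp hv
      rw [max_eq_left (by omega)]
      have e : v.ord h + c * -v.ord j = v.ord h - c * v.ord j := by ring
      rw [e]
      exact hcusp v hv'
  rw [Finset.sum_add_distrib, h0, zero_add, ← Finset.mul_sum] at h1
  have h2 : ∑ v ∈ S₀ ∪ D.support, max (D v) 0 = ∑ v ∈ D.support, max (D v) 0 := by
    symm
    refine Finset.sum_subset Finset.subset_union_right ?_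
    intro v _ hv
    rw [Finsupp.notMem_support_iff] at hv
    rw [hv]
    simp
  rw [h2, hψ'] at h1
  exact h1

end Abs

section Glue

open ModularCurve HahnSeries
open Fermat.Agent.S24 Fermat.Agent.Ribet.H884 Fermat.Agent.Ribet.H158.WallQ
open Fermat.Agent.A2.H708 Fermat.Agent.Ribet.H868

variable (m q M' : ℕ) [NeZero M'] [NeZero q] [NeZero (q * M')]

/-- The coefficientwise reduction of `Δ(t)/Δ(t^q)` modulo `q` is `H̄(j)`. -/
theorem coeffMap_unitL'_eq_aeval (hq : q.Prime) (k : Type*) [CommRing k] [CharP k q] :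
    coeffMap (Int.castRingHom k) (Fermat.Agent.S28.H589.unitL' q) =
      Polynomial.aeval (jqModC k) ((S36.H438.hassePoly q hq).map (Int.castRingHom k)) := by
  have h := congrArg (coeffMap (Int.castRingHom k)) (S36.H438.hassePoly_spec q hq)
  have hqk : coeffMap (Int.castRingHom k) (HahnSeries.C (q : ℤ)) = 0 := by
    ext n
    rw [coeffMap_coeff, HahnSeries.coeff_zero]
    by_cases hn : n = 0
    · subst hn
      rw [HahnSeries.C_apply, HahnSeries.coeff_single_same, eq_intCast, Int.cast_natCast]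
      exact CharP.cast_eq_zero k q
    · rw [HahnSeries.C_apply, HahnSeries.coeff_single_of_ne hn, map_zero]
  rw [map_add, map_mul, hqk, zero_mul, add_zero, Fermat.Agent.S36.Reg.H968.coeffMap_aeval,
    coeffMap_jqModC] at h
  exact h

/-- **The reduction of the modular unit on `C∞`**: `D⁻¹ = Δ(t)/Δ(t^q)` reduces to `H̄(j)`. -/
theorem isRedInf_unitFF_inv (hq : q.Prime) (A : ValuationSubring Kbar)
    (hA : A.LiesOverPrime q) :
    IsRedInf (q * M') A (unitFF q M')⁻¹
      (Polynomial.aeval (jqModC (kA A))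
        ((S36.H438.hassePoly q hq).map (Int.castRingHom (kA A)))) := by
  obtain ⟨hac, hch⟩ := Fermat.Agent.Ribet.H939.resField q hq A hA
  haveI := hch
  have hcoe : (((unitFF q M')⁻¹ : FF (q * M')) : LaurentSeries Kbar) =
      coeffMap (Int.castRingHom Kbar) (Fermat.Agent.S28.H589.unitL' q) := by
    rw [IntermediateField.coe_inv]
    apply inv_eq_of_mul_eq_one_right
    exact unitL_bar_mul868 q
  have hincl : incl A (coeffMap (Int.castRingHom A) (Fermat.Agent.S28.H589.unitL' q)) =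
      coeffMap (Int.castRingHom Kbar) (Fermat.Agent.S28.H589.unitL' q) := by
    rw [incl, coeffMap_coeffMap]
    exact coeffMap_congr (Subsingleton.elim _ _) _
  have hred : red A (coeffMap (Int.castRingHom A) (Fermat.Agent.S28.H589.unitL' q)) =
      Polynomial.aeval (jqModC (kA A))
        ((S36.H438.hassePoly q hq).map (Int.castRingHom (kA A))) := by
    rw [red, coeffMap_coeffMap, ← coeffMap_unitL'_eq_aeval q hq (kA A)]
    exact coeffMap_congr (Subsingleton.elim _ _) _
  have hne : Polynomial.aeval (jqModC (kA A))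
      ((S36.H438.hassePoly q hq).map (Int.castRingHom (kA A))) ≠ 0 := by
    rw [← S36.H438.hassePoly_red q hq (kA A)]
    refine pow_ne_zero _ ?_
    intro h0
    have h1 : Fermat.Agent.S28.deltaL (kA A) * Fermat.Agent.S28.deltaInvL (kA A) = 1 :=
      Fermat.Agent.S28.h88_deltaL_mul_deltaInvL (kA A)
    rw [h0, mul_zero] at h1
    exact zero_ne_one h1
  refine ⟨1, coeffMap (Int.castRingHom A) (Fermat.Agent.S28.H589.unitL' q), 1, one_ne_zero, ?_,
    ?_, ?_, ?_⟩
  · rw [hred]
    exact hne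
  · rw [map_one]
    exact one_ne_zero
  · rw [map_one, mul_one, hincl, cst_one, one_mul, hcoe]
  · rw [map_one, mul_one, hred]

/-- **Degree glue.**  `m ∣ div f`, `G · D^b = f^n · D^a` with `D = Δ(t^q)/Δ(t)`, and the
reduction of `G` on `C∞` has `m`-divisible orders at the non-cuspidal places of `X₀(M')_k`.
Then `m ∣ (a - b) · (q - 1) · ψ(M')`. -/
theorem slopeRel_of_nodeGen (hq : q.Prime) (hqM : ¬ q ∣ M') (hAux : S35.G.HasAux M' q)
    (hm : 0 < m) (A : ValuationSubring Kbar) (hA : A.LiesOverPrime q)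
    (f G : FF (q * M')) (hf0 : f ≠ 0)
    (hdiv : ∀ v : Place Kbar (FF (q * M')), (m : ℤ) ∣ v.ord f)
    (n a b : ℕ) (hrel : G * (unitFF q M') ^ b = f ^ n * (unitFF q M') ^ a)
    (r₁ : LaurentSeries (kA A)) (hr₁ : IsRedInf (q * M') A G r₁) (hP : PDivFin m M' r₁) :
    (m : ℤ) ∣ ((a : ℤ) - b) * (((q - 1) * dedekindPsi M' : ℕ) : ℤ) := by
  classical
  obtain ⟨hac, hch⟩ := Fermat.Agent.Ribet.H939.resField q hq A hA
  haveI := hac
  haveI := hch
  have hchar : ∀ p' : ℕ, p'.Prime → p' ∣ M' → (p' : kA A) ≠ 0 := by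
    intro p' hp' hd h0
    have h1 : q ∣ p' := (CharP.cast_eq_zero_iff (kA A) q p').mp h0
    have h2 : q = p' := (Nat.prime_dvd_prime_iff_eq hq hp').mp h1
    exact hqM (h2 ▸ hd)
  have hpd := Fermat.Agent.S37.H868.hpd_fullC (kA A) M' hchar
  have hdeg := Fermat.Agent.S37.H868.deg_fullC (kA A) M' hchar
  -- the reductions
  obtain ⟨rf, hrf⟩ := Fermat.Agent.Ribet.H997.exists_isRedInf hq hA hf0
  obtain ⟨hf, hhf⟩ := Fermat.Agent.Ribet.H997.redField q M' hq hqM A hA f rf (Or.inl hrf)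
  have hU := isRedInf_unitFF_inv q M' hq A hA
  set Hb : Polynomial (kA A) := (S36.H438.hassePoly q hq).map (Int.castRingHom (kA A)) with hHb
  have hHbdeg : Hb.natDegree = q - 1 := by
    rw [hHb, (S36.H438.hassePoly_monic q hq).natDegree_map, S36.H438.hassePoly_natDegree]
  have hHb0 : Hb ≠ 0 := ((S36.H438.hassePoly_monic q hq).map (Int.castRingHom (kA A))).ne_zero
  have hD0 : unitFF q M' ≠ 0 := unitFF_ne_zero q M'
  have hrel' : G * ((unitFF q M')⁻¹) ^ a = f ^ n * ((unitFF q M')⁻¹) ^ b := by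
    have hDa : (unitFF q M') ^ a ≠ 0 := pow_ne_zero _ hD0
    have hDb : (unitFF q M') ^ b ≠ 0 := pow_ne_zero _ hD0
    rw [inv_pow, inv_pow, ← div_eq_mul_inv, ← div_eq_mul_inv, div_eq_div_iff hDa hDb]
    exact hrel
  have h1 := hr₁.mul (hU.pow a)
  have h2 := (hrf.pow n).mul (hU.pow b)
  rw [hrel'] at h1
  obtain ⟨u, hu0, hu⟩ := Fermat.Agent.Ribet.H997.isRedInf_unique h1 h2
  obtain ⟨hG, hhG, hG0, hfin⟩ := hP
  -- the Hasse polynomial in `j` as an element of `F_k`
  set P : modularFunctionFieldFullC (kA A) M' := Polynomial.aeval (jC (kA A) M') Hb with hPdef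
  have hPcoe : (P : LaurentSeries (kA A)) = Polynomial.aeval (jqModC (kA A)) Hb := by
    have h := Polynomial.aeval_algHom_apply (modularFunctionFieldFullC (kA A) M').val
      (jC (kA A) M') Hb
    exact h.symm
  have hf0' : hf ≠ 0 := by
    intro h0
    apply hrf.ne_zero
    rw [← hhf, h0]
    rfl
  have hu' : algebraMap (kA A) (modularFunctionFieldFullC (kA A) M') u ≠ 0 := by
    rw [Ne, map_eq_zero]
    exact hu0
  have key : hf ^ n * P ^ b =
      algebraMap (kA A) (modularFunctionFieldFullC (kA A) M') u * (hG * P ^ a) := by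
    apply Subtype.ext
    show (hf : LaurentSeries (kA A)) ^ n * (P : LaurentSeries (kA A)) ^ b =
      algebraMap (kA A) (LaurentSeries (kA A)) u *
        ((hG : LaurentSeries (kA A)) * (P : LaurentSeries (kA A)) ^ a)
    have hC : HahnSeries.C u = algebraMap (kA A) (LaurentSeries (kA A)) u := by
      rw [S36.H438.algebraMap_laurent_eq_single]
      rfl
    rw [hhf, hhG, hPcoe, hu, hC]
  -- the constant
  have hj0 : jC (kA A) M' ≠ 0 := by
    intro h0
    have ht : Transcendental (kA A) (jC (kA A) M') :=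
      Fermat.Agent.S18.H905.transcendental_jC (kA A) M'
    rw [h0] at ht
    exact ht (isAlgebraic_zero)
  have hψ : ∀ D : Divisor (kA A) (modularFunctionFieldFullC (kA A) M'),
      (∀ Q, D Q = Q.ord (jC (kA A) M')⁻¹) →
        ∑ Q ∈ D.support, max (D Q) 0 = ((dedekindPsi M' : ℕ) : ℤ) := by
    intro D hD
    exact Fermat.Agent.S37.H868.sum_zero_inv_j_fullC (kA A) M' hchar ((jC (kA A) M')⁻¹)
      (by rw [IntermediateField.coe_inv]; rfl) D hD
  have hmain := dvd_mul_of_cusp_orders hpd hdeg (jC (kA A) M') hj0 ((dedekindPsi M' : ℕ) : ℤ) hψ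
    hG0 m (((b : ℤ) - a) * ((q - 1 : ℕ) : ℤ)) hfin (fun Q hQ => ?_)
  · have e : ((a : ℤ) - b) * (((q - 1) * dedekindPsi M' : ℕ) : ℤ) =
        -(((b : ℤ) - a) * ((q - 1 : ℕ) : ℤ) * ((dedekindPsi M' : ℕ) : ℤ)) := by
      push_cast
      ring
    rw [e, dvd_neg]
    exact hmain
  · -- orders at a cusp
    obtain ⟨hP0, hPord⟩ := Fermat.Agent.Lib.RR.H623.ord_aeval_of_ord_neg Q hQ Hb hHb0
    have hP0' : P ≠ 0 := hP0
    have hPord' : Q.ord P = ((q - 1 : ℕ) : ℤ) * Q.ord (jC (kA A) M') := by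
      rw [hPdef, hPord, hHbdeg]
    have hcf := Fermat.Agent.Ribet.H644.cuspGenInf m q M' hq hqM hAux hm A hA f hf0 hdiv rf hrf
      hf hhf Q hQ
    have hord := congrArg Q.ord key
    rw [Place.ord_mul Q (pow_ne_zero _ hf0') (pow_ne_zero _ hP0'),
      Place.ord_mul Q hu' (mul_ne_zero hG0 (pow_ne_zero _ hP0')),
      Place.ord_mul Q hG0 (pow_ne_zero _ hP0'), Fermat.Agent.Lib.RR.ord_algebraMap,
      Fermat.Agent.Lib.RR.ord_pow, Fermat.Agent.Lib.RR.ord_pow, Fermat.Agent.Lib.RR.ord_pow,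
      hPord'] at hord
    have e : Q.ord hG - ((b : ℤ) - a) * ((q - 1 : ℕ) : ℤ) * Q.ord (jC (kA A) M') =
        (n : ℤ) * Q.ord hf := by
      linear_combination -hord
    rw [e]
    exact Dvd.dvd.mul_left hcf _

end Glue

end Fermat.Agent.S59.LoSqC.H862

end
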