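import Fermat.Agent.S59.LoSqC.H862.NodeRelTh1
import Fermat.Agent.S59.LoSqC.H862.NodeRelDeg
import Fermat.Agent.Ribet.H472.DictPure

/-!
# S59 / cell (C) LO-SQ / W-COUNT, sub-leaf NODE-REL — E-form, EVERY exponent `m` (helper862)

Level `M' q`, `q ∤ M'` (auxiliary condition `S35.G.HasAux M' q`), `A` over `q`, `E` a good level
with uniformiser `w = q` (e.g. the inertia field), finite chart `Bf = chartAlg (x)`, `x = j · j_q`,
with ANY semistable chart structure `cf` (components `cf.p₁`, `cf.p₂`), THICKNESS ONE at the nodes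
as a hypothesis (`Th1At` = the conclusion of `S36.H803.Th1Statement`).

**`nodeRelE`** : for `f ∈ F_E^×` with `m ∣ div f` (over `E` and over `ℚ̄`) and branch valuations
`v₁`, `v₂` along the two components:

  `m ∣ (q - 1) · ψ(M') · (v₁ - v₂)`.

So the slopes `v₁ - v₂ mod m` of the Kummer generators of the inertia-fixed `m`-torsion classes
are killed by the constant `s = (q - 1) ψ(M')`, INDEPENDENT of `m` (in particular for all
`m = p ^ n`, `p = 3` included).

Proof: the calibrated function `G = f¹² (Δ(t)/Δ(t^q))^(v₁ - v₂) q^(-12 v₁)` is pure at every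
closed point of the special fibre (`chartPureQ_calibE_th1`), hence its reduction on `C∞` lies in
`k(X₀(M'))` with `m`-divisible orders off the cusps (`Ribet.H472.nodeGenOfPure`); at the cusps the
orders of the reduction of `f` are divisible by `m` (`Ribet.H644.cuspGenInf`) and the reduction of
the unit is `H̄(j)^{±1}` (Hasse polynomial, degree `q - 1`); the degree of a principal divisor on
`X₀(M')_k` is zero (`slopeRel_of_nodeGen`).
-/

set_option autoImplicit false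
set_option linter.unusedSectionVars false
set_option linter.unusedVariables false
set_option linter.style.haveILetI false
set_option synthInstance.maxHeartbeats 400000
set_option maxHeartbeats 1600000

noncomputable section

open AlgebraicCurve

namespace Fermat.Agent.S59.LoSqC.H862

open ModularCurve HahnSeries
open Fermat.Agent.S24 Fermat.Agent.Ribet.H884 Fermat.Agent.Ribet.H158.WallQ
open Fermat.Agent.A2.Mod Fermat.Agent.Ribet.H868
open Fermat.Agent.Ribet.H704 (I6.ValAt)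

variable (m q M' : ℕ) [NeZero M'] [NeZero q] [NeZero (q * M')]

/-- The algebra of the slope relation, with the exponents recorded:
`G' = f₀¹² (D⁻¹)^(v₁ - v₂) c₀^(-12 v₁)` ⟹ `G' D^b = (c₀^(-v₁) f₀)¹² D^a`, `a - b = v₂ - v₁`. -/
theorem exists_slope_rel862 {K F : Type*} [Field K] [Field F] [Algebra K F] (c₀ : K)
    (f₀ D G' : F) (hD0 : D ≠ 0) (v₁ v₂ : ℤ)
    (hG' : G' = f₀ ^ 12 * (D⁻¹) ^ (v₁ - v₂) * (algebraMap K F c₀) ^ (-((12 : ℕ) : ℤ) * v₁)) :
    ∃ a b : ℕ, (a : ℤ) - b = v₂ - v₁ ∧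
      G' * D ^ b = (algebraMap K F (c₀ ^ (-v₁)) * f₀) ^ 12 * D ^ a := by
  have hf12 : (algebraMap K F (c₀ ^ (-v₁)) * f₀) ^ 12 = f₀ ^ 12 *
      (algebraMap K F c₀) ^ (-((12 : ℕ) : ℤ) * v₁) := by
    rw [mul_pow, map_zpow₀, ← zpow_natCast, ← zpow_mul, mul_comm (f₀ ^ 12)]
    congr 2
    ring
  have hG'' : G' = (algebraMap K F (c₀ ^ (-v₁)) * f₀) ^ 12 * D ^ (v₂ - v₁) := by
    rw [hG', hf12, inv_zpow', neg_sub]
    ring
  rcases le_total v₁ v₂ with hle | hle
  · refine ⟨(v₂ - v₁).toNat, 0, ?_, ?_⟩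
    · rw [Int.toNat_of_nonneg (by omega)]
      simp
    · rw [pow_zero, mul_one, hG'', ← zpow_natCast D (v₂ - v₁).toNat,
        Int.toNat_of_nonneg (by omega)]
  · refine ⟨0, (v₁ - v₂).toNat, ?_, ?_⟩
    · rw [Int.toNat_of_nonneg (by omega)]
      simp
    · rw [pow_zero, mul_one, hG'', ← zpow_natCast D (v₁ - v₂).toNat,
        Int.toNat_of_nonneg (by omega), mul_assoc, ← zpow_add₀ hD0]
      have : v₂ - v₁ + (v₁ - v₂) = 0 := by ring
      rw [this, zpow_zero, mul_one]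

/-- **NODE-REL, E-form, every exponent `m`**, from thickness one. -/
theorem nodeRelE (hm : 0 < m) (hq : q.Prime) (hqM : ¬ q ∣ M') (hAux : S35.G.HasAux M' q)
    (A : ValuationSubring Kbar) (hA : A.LiesOverPrime q)
    (E : IntermediateField ℚ (AlgebraicClosure ℚ)) (w : RE A E) (hS : Setting A E M' q w)
    (hE : A2.GoodField A E) (hwq : (w : E) = (q : E)) (hTh1 : Th1At A E M' q w)
    (cf : A2.SSChart w (chartAlg A E (M' * q) (xE E M' q)))
    (f : FE E (M' * q)) (hf : f ≠ 0) (hdivE : A2.DivisibleDiv E m f)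
    (hdivK : ∀ v : Place Kbar (FF (q * M')),
      (m : ℤ) ∣ v.ord (toFF E (Nat.mul_comm M' q) f))
    (v₁ v₂ : ℤ)
    (hv₁ : I6.ValAt (FE E (M' * q)) cf.p₁
      (algebraMap ↥(RE A E) ↥(chartAlg A E (M' * q) (xE E M' q)) w) f v₁)
    (hv₂ : I6.ValAt (FE E (M' * q)) cf.p₂
      (algebraMap ↥(RE A E) ↥(chartAlg A E (M' * q) (xE E M' q)) w) f v₂) :
    (m : ℤ) ∣ (((q - 1) * dedekindPsi M' : ℕ) : ℤ) * (v₁ - v₂) := by
  obtain ⟨w₁, w₂, hw, hpure⟩ := chartPureQ_calibE_th1 A E M' q m hm w hS hE hAux hwq hTh1 cf f hf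
    hdivE v₁ v₂ hv₁ hv₂
  -- the dictionary
  have hG0 : calibE A E M' q w w₁ w₂ f ≠ 0 := calibE_ne_zero A E M' q w hS.unif.ne_zero w₁ w₂ hf
  obtain ⟨r₁, r₂, hr₁, -, hP₁, -⟩ := Fermat.Agent.Ribet.H472.nodeGenOfPure hS hE m
    (calibE A E M' q w w₁ w₂ f) (toFF E (Nat.mul_comm M' q) (calibE A E M' q w w₁ w₂ f)) hG0
    (coe_toFF E (Nat.mul_comm M' q) _) hpure
  -- the slope relation
  have hG' := toFF_calibE q M' A E w hwq w₁ w₂ f
  have hqK : (q : Kbar) ≠ 0 := Nat.cast_ne_zero.mpr hq.ne_zero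
  obtain ⟨a, b, hab, hrel⟩ := exists_slope_rel862 (q : Kbar) _ (unitFF q M') _
    (unitFF_ne_zero q M') w₁ w₂ hG'
  have hf' : toFF E (Nat.mul_comm M' q) f ≠ 0 :=
    (map_ne_zero_iff _ (toFF E (Nat.mul_comm M' q)).injective).mpr hf
  have hc0 : algebraMap Kbar (FF (q * M')) ((q : Kbar) ^ (-w₁)) ≠ 0 := by
    rw [Ne, map_eq_zero]
    exact zpow_ne_zero _ hqK
  have hdiv' : ∀ v : Place Kbar (FF (q * M')),
      (m : ℤ) ∣ v.ord (algebraMap Kbar (FF (q * M')) ((q : Kbar) ^ (-w₁)) *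
        toFF E (Nat.mul_comm M' q) f) := by
    intro v
    rw [Place.ord_mul v hc0 hf', Fermat.Agent.Lib.RR.ord_algebraMap, zero_add]
    exact hdivK v
  have hmain := slopeRel_of_nodeGen m q M' hq hqM hAux hm A hA _ _ (mul_ne_zero hc0 hf') hdiv'
    12 a b hrel r₁ hr₁ hP₁
  rw [hab] at hmain
  rcases hw with ⟨h1, h2⟩ | ⟨h1, h2⟩
  · rw [h1, h2] at hmain
    have e : (((q - 1) * dedekindPsi M' : ℕ) : ℤ) * (v₁ - v₂) =
        -((v₂ - v₁) * (((q - 1) * dedekindPsi M' : ℕ) : ℤ)) := by ring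
    rw [e, dvd_neg]
    exact hmain
  · rw [h1, h2] at hmain
    rw [mul_comm]
    exact hmain

end Fermat.Agent.S59.LoSqC.H862

end
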