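import Fermat.Agent.S59.LoSqC.H862.SlopeCardE

/-!
# S59 / cell (C) LO-SQ / W-COUNT: `HasSlopeZeroGen` in valuation-ring form (helper862)

Bridge requested by helper27 (#12132 (2)): a class with `H862.HasSlopeZeroGen` (branch valuations
on a semistable chart structure of the finite chart, uniformiser `q`) has an `E`-rational Kummer
generator whose orders along `V∞` and `V₀ = V∞ ∘ W` (ANY `IsVinf V`, `IsFricke W`), measured with
ANY uniformiser `w` of `R_E`, are congruent modulo `m`.  `E` is the inertia field of `P`.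

* `slopeZeroE_of_valAt_any862` : the same at any good level `E` with uniformiser `w₀ = ε w`, for
  ANY semistable chart structure `cf` on the finite chart (the two components are cut out by
  `V∞`, `V₀` in one of the two orders: `Ribet.H862.cutBy_of_isCoordPair`).
* `slopeZeroE_of_hasSlopeZeroGen862` : the statement for `HasSlopeZeroGen`.
-/

set_option autoImplicit false
set_option linter.unusedSectionVars false
set_option linter.unusedVariables false
set_option linter.style.haveILetI false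
set_option synthInstance.maxHeartbeats 400000
set_option maxHeartbeats 1600000

noncomputable section

open AlgebraicCurve

namespace Fermat.Agent.S59.LoSqC.H862

section Level

open ModularCurve HahnSeries
open Fermat.Agent.S24 Fermat.Agent.Ribet.H884 Fermat.Agent.Ribet.H158.WallQ
open Fermat.Agent.A2.Mod Fermat.Agent.Ribet.H868
open Fermat.Agent.Ribet.H704 (I6.ValAt)
open Fermat.Agent.A2.T1.H669 (iota)
open Fermat.Agent.A2.IF.H429 (inertiaField)
open Fermat.Agent.S36.Eng (UnitAt)

variable (P : ValuationSubring (AlgebraicClosure ℚ))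
  (E : IntermediateField ℚ (AlgebraicClosure ℚ)) (M q : ℕ) [NeZero M] [NeZero q]

/-- **Branch valuations on ANY chart structure give the orders along `V∞`, `V₀`**, up to the
order of the two components; in particular the slope modulo `m` is the same. -/
theorem slopeZeroE_of_valAt_any862 (m : ℕ) (w₀ w ε : RE P E) (hε : IsUnit ε) (h : w₀ = ε * w)
    (hS₀ : Setting P E M q w₀) (hAux : S35.G.HasAux M q)
    (V : ValuationSubring (FE E (M * q))) (W : FE E (M * q) ≃ₐ[E] FE E (M * q))
    (hV : IsVinf P E (M * q) V) (hW : IsFricke E (M * q) W)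
    (cf : A2.SSChart w₀ (chartAlg P E (M * q) (xE E M q)))
    (g : FE E (M * q)) (v₁ v₂ : ℤ)
    (hv₁ : I6.ValAt (FE E (M * q)) cf.p₁
      (algebraMap ↥(RE P E) ↥(chartAlg P E (M * q) (xE E M q)) w₀) g v₁)
    (hv₂ : I6.ValAt (FE E (M * q)) cf.p₂
      (algebraMap ↥(RE P E) ↥(chartAlg P E (M * q) (xE E M q)) w₀) g v₂)
    (hdvd : (m : ℤ) ∣ v₁ - v₂) :
    ∃ a₁ a₂ : ℤ, UnitAt V (g * (cE P E (M * q) w ^ a₁)⁻¹) ∧
      UnitAt (V.comap (W : FE E (M * q) →+* FE E (M * q))) (g * (cE P E (M * q) w ^ a₂)⁻¹) ∧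
      (m : ℤ) ∣ a₁ - a₂ := by
  rcases Fermat.Agent.Ribet.H862.cutBy_of_isCoordPair hS₀ hAux.1 hAux.2 V W hV hW _ _
      (Or.inl ⟨rfl, rfl⟩) (chartAlg P E (M * q) (xE E M q)) (fun _ => Iff.rfl) cf with hc | hc
  · obtain ⟨h1, h2⟩ := slopeZero_of_valAt862 P E M q w₀ w ε hε h hS₀ V W hV hW cf hc g v₁ v₂
      hv₁ hv₂
    exact ⟨v₁, v₂, h1, h2, hdvd⟩
  · have hc' : S35.G.CutBy w₀ (chartAlg P E (M * q) (xE E M q))
        (Fermat.Agent.Ribet.H862.swapChart cf) V
        (V.comap (W : FE E (M * q) →+* FE E (M * q))) :=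
      Fermat.Agent.Ribet.H862.cutBy_swap hc rfl rfl
    obtain ⟨h1, h2⟩ := slopeZero_of_valAt862 P E M q w₀ w ε hε h hS₀ V W hV hW
      (Fermat.Agent.Ribet.H862.swapChart cf) hc' g v₂ v₁ hv₂ hv₁
    exact ⟨v₂, v₁, h1, h2, (dvd_sub_comm).mp hdvd⟩

variable (m : ℕ) [NeZero (q * M)]

/-- **`HasSlopeZeroGen` in valuation-ring form** (inertia field, ANY uniformiser `w`, ANY
`IsVinf V`, `IsFricke W`). -/
theorem slopeZeroE_of_hasSlopeZeroGen862 (hq : q.Prime) (hqM : ¬ q ∣ M)
    (hAux : S35.G.HasAux M q) (hP : P.LiesOverPrime q)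
    (w : RE P (inertiaField P)) (hw : Irreducible w)
    (V : ValuationSubring (FE (inertiaField P) (M * q)))
    (W : FE (inertiaField P) (M * q) ≃ₐ[inertiaField P] FE (inertiaField P) (M * q))
    (hV : IsVinf P (inertiaField P) (M * q) V) (hW : IsFricke (inertiaField P) (M * q) W)
    (x : JZero (q * M)) (hx : HasSlopeZeroGen m q M P x) :
    ∃ g : FE (inertiaField P) (M * q), g ≠ 0 ∧ A2.DivisibleDiv (inertiaField P) m g ∧
      IsKummerGen (q * M) m (toFF (inertiaField P) (Nat.mul_comm M q) g) x ∧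
      ∃ a₁ a₂ : ℤ, UnitAt V (g * (cE P (inertiaField P) (M * q) w ^ a₁)⁻¹) ∧
        UnitAt (V.comap (W : FE (inertiaField P) (M * q) →+* FE (inertiaField P) (M * q)))
          (g * (cE P (inertiaField P) (M * q) w ^ a₂)⁻¹) ∧
        (m : ℤ) ∣ a₁ - a₂ := by
  obtain ⟨g, cf, v₁, v₂, hg0, hgdiv, hgK, hv₁, hv₂, hdvd⟩ := hx
  have hE : A2.GoodField P (inertiaField P) := goodField_inertiaField P q hq hP
  haveI : IsDiscreteValuationRing ↥(RE P (inertiaField P)) := hE.dvr
  have hS₀ : Setting P (inertiaField P) M q ((q : ℕ) : RE P (inertiaField P)) :=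
    setting_inertiaField P q M hq hqM (NeZero.ne M) hP
  obtain ⟨u, hu⟩ := IsDiscreteValuationRing.associated_of_irreducible _ hw hS₀.unif
  have hqw : ((q : ℕ) : RE P (inertiaField P)) = (u : RE P (inertiaField P)) * w := by
    rw [← hu, mul_comm]
  exact ⟨g, hg0, hgdiv, hgK,
    slopeZeroE_of_valAt_any862 P (inertiaField P) M q m _ w _ u.isUnit hqw hS₀ hAux V W hV hW cf
      g v₁ v₂ hv₁ hv₂ hdvd⟩

end Level

end Fermat.Agent.S59.LoSqC.H862

end
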