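import Fermat.Agent.S59.LoSqC.H862.SlopeZeroGen

/-!
# S59 / cell (C) LO-SQ / W-COUNT, leaf COMPAT (`hFk`) in the J-native vocabulary (helper862)

`F n = {x | HasSlopeZeroGen (p ^ n) q M' A x}` (helper34's `slopeZeroPart_h34`).

* `exists_root_of_kummerGen862` : over `ℚ̄`, a Kummer generator of exponent `d k` of a class
  killed by `k` is `c · H ^ d` with `H` a Kummer generator of exponent `k`.
* `exists_root_E862` : the same over the inertia field (descent
  `S36.H756.descend_const_mul_pow`), with `A2.DivisibleDiv E k h₁`.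
* `valAt_const_mul_pow_chart862` : branch valuations of `c₁ h₁ ^ d` on a chart:
  `v₁ - v₂ = d (u₁ - u₂)`.
* **`hasSlopeZeroGen_of_mul862`** : `HasSlopeZeroGen (d k) x`, `k • x = 0` ⟹
  `HasSlopeZeroGen k x`.
* **`hasSlopeZeroGen_pow_succ862`** : `hFk` VERBATIM for `F n = {HasSlopeZeroGen (p ^ n)}`:
  `HasSlopeZeroGen (p ^ (n + 1)) x`, `p • x = 0` ⟹ `HasSlopeZeroGen (p ^ 1) x`.
-/

set_option autoImplicit false
set_option linter.unusedSectionVars false
set_option linter.unusedVariables false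
set_option linter.style.haveILetI false
set_option synthInstance.maxHeartbeats 400000
set_option maxHeartbeats 1600000

noncomputable section

open AlgebraicCurve

namespace Fermat.Agent.S59.LoSqC.H862

/-! ## Constants of a discrete valuation ring -/

section DVR

/-- In a discrete valuation ring `O` with fraction field `E` and uniformiser `w`, every nonzero
`e ∈ E` is `ε · w ^ j` with `ε ∈ Oˣ`, `j ∈ ℤ`. -/
theorem exists_unit_mul_zpow862 {O E : Type*} [CommRing O] [IsDomain O]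
    [IsDiscreteValuationRing O] [Field E] [Algebra O E] [IsFractionRing O E] {w : O}
    (hw : Irreducible w) {e : E} (he : e ≠ 0) :
    ∃ (ε : O) (j : ℤ), IsUnit ε ∧ e = algebraMap O E ε * (algebraMap O E w) ^ j := by
  obtain ⟨a, b, hb, rfl⟩ := IsFractionRing.div_surjective (A := O) e
  have hb0 : b ≠ 0 := nonZeroDivisors.ne_zero hb
  have ha0 : a ≠ 0 := by
    rintro rfl
    rw [map_zero, zero_div] at he
    exact he rfl
  obtain ⟨k, u, hu⟩ := IsDiscreteValuationRing.eq_unit_mul_pow_irreducible ha0 hw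
  obtain ⟨k', u', hu'⟩ := IsDiscreteValuationRing.eq_unit_mul_pow_irreducible hb0 hw
  have hw0 : algebraMap O E w ≠ 0 :=
    (map_ne_zero_iff _ (IsFractionRing.injective O E)).2 hw.ne_zero
  have hu'0 : algebraMap O E (u' : O) ≠ 0 :=
    (map_ne_zero_iff _ (IsFractionRing.injective O E)).2 u'.ne_zero
  refine ⟨((u * u'⁻¹ : Oˣ) : O), (k : ℤ) - (k' : ℤ), Units.isUnit _, ?_⟩
  have h1 : algebraMap O E ((u * u'⁻¹ : Oˣ) : O) * algebraMap O E (u' : O) =
      algebraMap O E (u : O) := by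
    rw [← map_mul]
    congr 1
    rw [Units.val_mul, mul_assoc, Units.inv_mul, mul_one]
  rw [hu, hu', map_mul, map_mul, map_pow, map_pow, zpow_sub₀ hw0, zpow_natCast, zpow_natCast,
    ← h1]
  field_simp

end DVR

/-! ## Branch valuations of `c₁ h₁ ^ d` -/

section AlgChart

open IsLocalRing Fermat.Agent.Ribet.H704 Fermat.Agent.A2 Fermat.Agent.A2.Alg.H132
open Fermat.Agent.A2.H849 Fermat.Agent.A2.H609
open Fermat.Agent.A2.Alg Fermat.Agent.A2.Alg.H609

variable {R E F : Type} [CommRing R] [IsDomain R] [IsDiscreteValuationRing R]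
  [Field E] [CharZero E] [Algebra R E] [IsFractionRing R E]
  [Field F] [Algebra E F] [Algebra R F] [IsScalarTower R E F]

/-- Branch valuations of a constant times a `d`-th power on a chart: the slope is `d` times the
slope of the root. -/
theorem valAt_const_mul_pow_chart862
    (w : R) (x : F) (B : Subalgebra R F) (hB : ChartCtx E w x B) (c : SSChart w B)
    (c₁ : E) (hc₁ : c₁ ≠ 0) (h₁ : F) (hh₁ : h₁ ≠ 0) (d : ℕ) (v₁ v₂ : ℤ)
    (hv₁ : I6.ValAt F c.p₁ (algebraMap R B w) (algebraMap E F c₁ * h₁ ^ d) v₁)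
    (hv₂ : I6.ValAt F c.p₂ (algebraMap R B w) (algebraMap E F c₁ * h₁ ^ d) v₂) :
    ∃ u₁ u₂ : ℤ, I6.ValAt F c.p₁ (algebraMap R B w) h₁ u₁ ∧
      I6.ValAt F c.p₂ (algebraMap R B w) h₁ u₂ ∧ v₁ - v₂ = (d : ℤ) * (u₁ - u₂) := by
  obtain ⟨hnoeth, hic, hfrac⟩ := H34.chart_instances' w x B hB
  have hp₁ : c.p₁.IsPrime := c.prime₁
  have hp₂ : c.p₂.IsPrime := c.prime₂
  have hw0 : algebraMap R B w ≠ 0 :=
    Fermat.Agent.A2.H609.ne_zero_of_inf_eq_span c.p₁ c.p₂ c.inf_eq c.not_le₁₂ c.not_le₂₁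
  have hV₁ : VertData (algebraMap R B w) c.p₁ c.p₂ := ⟨c.prime₁, hw0, c.not_le₂₁, c.inf_eq⟩
  have hV₂ : VertData (algebraMap R B w) c.p₂ c.p₁ :=
    ⟨c.prime₂, hw0, c.not_le₁₂, by rw [inf_comm]; exact c.inf_eq⟩
  obtain ⟨u₁, hu₁⟩ := Fermat.Agent.Ribet.H132.exists_valAt (K := F) hV₁ hh₁
  obtain ⟨u₂, hu₂⟩ := Fermat.Agent.Ribet.H132.exists_valAt (K := F) hV₂ hh₁
  -- the constant
  obtain ⟨ε, j, hε, hcj⟩ := exists_unit_mul_zpow862
    (O := R) (E := E) hB.hw hc₁
  have hcF : algebraMap E F c₁ =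
      algebraMap B F (algebraMap R B ε) * (algebraMap B F (algebraMap R B w)) ^ j := by
    rw [hcj, map_mul, map_zpow₀, ← IsScalarTower.algebraMap_apply R E F,
      ← IsScalarTower.algebraMap_apply R E F]
    rfl
  have hεB : IsUnit (algebraMap R B ε) := hε.map _
  have key : ∀ (𝔭 𝔮 : Ideal B) (hV : VertData (algebraMap R B w) 𝔭 𝔮),
      I6.ValAt F 𝔭 (algebraMap R B w) (algebraMap E F c₁) j := by
    intro 𝔭 𝔮 hV
    have hnot : algebraMap R B ε ∉ 𝔭 := fun hmem =>
      hV.prime.ne_top (Ideal.eq_top_of_isUnit_mem _ hmem hεB)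
    have h1 := Fermat.Agent.Ribet.H132.valAt_of_notMem (K := F) hV hnot
    have h2 : I6.ValAt F 𝔭 (algebraMap R B w) ((algebraMap B F (algebraMap R B w)) ^ j) j := by
      have hpi := Fermat.Agent.Ribet.H132.valAt_pi (K := F) hV
      rcases Int.eq_nat_or_neg j with ⟨n, rfl | rfl⟩
      · have := Fermat.Agent.Ribet.H132.valAt_pow (K := F) hV hpi n
        rwa [mul_one, ← zpow_natCast] at this
      · have := Fermat.Agent.Ribet.H132.valAt_inv (K := F) hV
          (Fermat.Agent.Ribet.H132.valAt_pow (K := F) hV hpi n)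
        rwa [mul_one, ← zpow_natCast, ← zpow_neg] at this
    have h3 := Fermat.Agent.Ribet.H132.valAt_mul (K := F) hV h1 h2
    rwa [zero_add, ← hcF] at h3
  have e₁ : v₁ = j + (d : ℤ) * u₁ :=
    Fermat.Agent.Ribet.H132.valAt_unique (K := F) hV₁ hv₁
      (Fermat.Agent.Ribet.H132.valAt_mul (K := F) hV₁ (key _ _ hV₁)
        (Fermat.Agent.Ribet.H132.valAt_pow (K := F) hV₁ hu₁ d))
  have e₂ : v₂ = j + (d : ℤ) * u₂ :=
    Fermat.Agent.Ribet.H132.valAt_unique (K := F) hV₂ hv₂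
      (Fermat.Agent.Ribet.H132.valAt_mul (K := F) hV₂ (key _ _ hV₂)
        (Fermat.Agent.Ribet.H132.valAt_pow (K := F) hV₂ hu₂ d))
  refine ⟨u₁, u₂, hu₁, hu₂, ?_⟩
  rw [e₁, e₂]
  ring

end AlgChart

/-! ## Roots of Kummer generators -/

section Level

open ModularCurve HahnSeries
open Fermat.Agent.S24 Fermat.Agent.Ribet.H884 Fermat.Agent.Ribet.H158.WallQ
open Fermat.Agent.A2.Mod Fermat.Agent.Ribet.H868
open Fermat.Agent.Ribet.H704 (I6.ValAt)
open Fermat.Agent.A2.T1.H669 (iota)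
open Fermat.Agent.A2.IF.H429 (inertiaField)

/-- **Root over `ℚ̄`**: a Kummer generator of exponent `d k` of a class killed by `k` is a
constant times the `d`-th power of a Kummer generator of exponent `k`. -/
theorem exists_root_of_kummerGen862 (N : ℕ) [NeZero N] (d k : ℕ) (hd : 0 < d) (f : FF N)
    (x : JZero N) (hf : IsKummerGen N (d * k) f x) (hkx : k • x = 0) :
    ∃ (c : Kbar) (H : FF N), c ≠ 0 ∧ H ≠ 0 ∧ f = algebraMap Kbar (FF N) c * H ^ d ∧
      IsKummerGen N k H x := by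
  obtain ⟨hf0, D, rfl, hord⟩ := hf
  have e : k • (Pic0.mk D : JZero N) = Pic0.mk (k • D) := rfl
  rw [e] at hkx
  have hmem := (QuotientAddGroup.eq_zero_iff (k • D)).mp hkx
  rw [AddSubgroup.mem_addSubgroupOf] at hmem
  obtain ⟨H, hH0, hH⟩ := hmem
  have hHv : ∀ v : Place Kbar (FF N), v.ord H = (k : ℤ) * (D : Divisor Kbar (FF N)) v := by
    intro v
    rw [← hH v]
    simp
  have hHd0 : H ^ d ≠ 0 := pow_ne_zero d hH0
  have hu0 : f * (H ^ d)⁻¹ ≠ 0 := mul_ne_zero hf0 (inv_ne_zero hHd0)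
  have hu : ∀ v : Place Kbar (FF N), v.ord (f * (H ^ d)⁻¹) = 0 := by
    intro v
    rw [v.ord_mul hf0 (inv_ne_zero hHd0), v.ord_inv, ← zpow_natCast, v.ord_zpow, hord v, hHv v]
    push_cast
    ring
  obtain ⟨c, hc⟩ := Fermat.Agent.S18.H504.constOfOrdZero_modularFunctionFieldBar N _ hu0 hu
  have hc0 : c ≠ 0 := by
    rintro rfl
    rw [map_zero] at hc
    exact hu0 hc
  refine ⟨c, H, hc0, hH0, ?_, hH0, D, rfl, hHv⟩
  rw [← hc, mul_assoc, inv_mul_cancel₀ hHd0, mul_one]

/-- **Root over the inertia field** (written as a fixed field). -/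
theorem exists_root_E862 (A : ValuationSubring Kbar) (N : ℕ) [NeZero N] (d k : ℕ) (hd : 0 < d)
    (g : FE (IntermediateField.fixedField (A.inertiaSubgroupIn ℚ)) N) (x : JZero N)
    (hg : IsKummerGen N (d * k)
      (iota (IntermediateField.fixedField (A.inertiaSubgroupIn ℚ))
        (modularFunctionFieldFull N) g) x)
    (hkx : k • x = 0) :
    ∃ (c₁ : IntermediateField.fixedField (A.inertiaSubgroupIn ℚ))
      (h₁ : FE (IntermediateField.fixedField (A.inertiaSubgroupIn ℚ)) N), c₁ ≠ 0 ∧ h₁ ≠ 0 ∧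
      g = algebraMap (IntermediateField.fixedField (A.inertiaSubgroupIn ℚ))
        (FE (IntermediateField.fixedField (A.inertiaSubgroupIn ℚ)) N) c₁ * h₁ ^ d ∧
      IsKummerGen N k (iota (IntermediateField.fixedField (A.inertiaSubgroupIn ℚ))
        (modularFunctionFieldFull N) h₁) x ∧
      A2.DivisibleDiv (IntermediateField.fixedField (A.inertiaSubgroupIn ℚ)) k h₁ := by
  obtain ⟨c, H, hc, hH, hfH, hHK⟩ := exists_root_of_kummerGen862 N d k hd _ x hg hkx
  obtain ⟨c₁, h₁, hc₁, hh₁, hgh⟩ := Fermat.Agent.S36.H756.descend_const_mul_pow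
    (A.inertiaSubgroupIn ℚ) hd g c H hc hH hfH
  obtain ⟨hg0, D, hDx, hord⟩ := hg
  have hι : iota (IntermediateField.fixedField (A.inertiaSubgroupIn ℚ))
      (modularFunctionFieldFull N) h₁ ≠ 0 :=
    Fermat.Agent.A2.T1.H669.iota_ne_zero _ _ hh₁
  have hord' : ∀ v : Place Kbar (FF N),
      v.ord (iota (IntermediateField.fixedField (A.inertiaSubgroupIn ℚ))
        (modularFunctionFieldFull N) h₁) = (k : ℤ) * (D : Divisor Kbar (FF N)) v := by
    intro v
    have h1 := hord v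
    rw [hgh, map_mul, map_pow, Fermat.Agent.S36.H756.iota_algebraMap_E,
      v.ord_mul (by simpa using hc₁) (pow_ne_zero d hι),
      Fermat.Agent.S36.H756.ord_const_eq_zero, zero_add, ← zpow_natCast, v.ord_zpow] at h1
    have hd' : (d : ℤ) ≠ 0 := by exact_mod_cast hd.ne'
    apply mul_left_cancel₀ hd'
    rw [h1]
    push_cast
    ring
  refine ⟨c₁, h₁, hc₁, hh₁, hgh, ⟨hι, D, hDx, hord'⟩, ?_⟩
  exact Fermat.Agent.A2.T1.H669.divisibleDiv_of_ord
    (IntermediateField.fixedField (A.inertiaSubgroupIn ℚ)) (modularFunctionFieldFull N) k h₁ hh₁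
    (fun v => ⟨_, hord' v⟩)

/-- The same with the level renamed on the `J`-side. -/
theorem exists_root_cast862 (A : ValuationSubring Kbar) {N N' : ℕ} [NeZero N] [NeZero N']
    (h : N = N') (d k : ℕ) (hd : 0 < d)
    (g : FE (IntermediateField.fixedField (A.inertiaSubgroupIn ℚ)) N) (x : JZero N')
    (hg : IsKummerGen N' (d * k)
      (toFF (IntermediateField.fixedField (A.inertiaSubgroupIn ℚ)) h g) x)
    (hkx : k • x = 0) :
    ∃ (c₁ : IntermediateField.fixedField (A.inertiaSubgroupIn ℚ))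
      (h₁ : FE (IntermediateField.fixedField (A.inertiaSubgroupIn ℚ)) N), c₁ ≠ 0 ∧ h₁ ≠ 0 ∧
      g = algebraMap (IntermediateField.fixedField (A.inertiaSubgroupIn ℚ))
        (FE (IntermediateField.fixedField (A.inertiaSubgroupIn ℚ)) N) c₁ * h₁ ^ d ∧
      IsKummerGen N' k (toFF (IntermediateField.fixedField (A.inertiaSubgroupIn ℚ)) h h₁) x ∧
      A2.DivisibleDiv (IntermediateField.fixedField (A.inertiaSubgroupIn ℚ)) k h₁ := by
  subst h
  exact exists_root_E862 A N d k hd g x hg hkx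

variable (q M' : ℕ) [NeZero M'] [NeZero q] [NeZero (q * M')]

/-- **COMPAT in the modulus**: a slope-zero class of exponent `d k` killed by `k` is a slope-zero
class of exponent `k`. -/
theorem hasSlopeZeroGen_of_mul862 (d k : ℕ) (hd : 0 < d) (hq : q.Prime) (hqM : ¬ q ∣ M')
    (hAux : S35.G.HasAux M' q) (A : ValuationSubring Kbar) (hA : A.LiesOverPrime q)
    (x : JZero (q * M')) (hx : HasSlopeZeroGen (d * k) q M' A x) (hkx : k • x = 0) :
    HasSlopeZeroGen k q M' A x := by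
  obtain ⟨g, cf, v₁, v₂, hg0, hgdiv, hgK, hv₁, hv₂, hdvd⟩ := hx
  have hE : A2.GoodField A (inertiaField A) := goodField_inertiaField A q hq hA
  have hS : Setting A (inertiaField A) M' q ((q : ℕ) : RE A (inertiaField A)) :=
    setting_inertiaField A q M' hq hqM (NeZero.ne M') hA
  haveI : IsDiscreteValuationRing ↥(RE A (inertiaField A)) := hS.dvr
  haveI : NeZero (M' * q) := ⟨mul_ne_zero (NeZero.ne M') hq.ne_zero⟩
  obtain ⟨c₁, h₁, hc₁, hh₁, hgh, hK, hdiv⟩ :=
    exists_root_cast862 A (Nat.mul_comm M' q) d k hd g x hgK hkx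
  -- the chart context
  obtain ⟨hx', hfr, hconst⟩ := H31.deg (inertiaField A) M' q hq hqM
  have hpos : 0 < Module.finrank
      (IntermediateField.adjoin (inertiaField A)
        ({xE (inertiaField A) M' q} : Set (FE (inertiaField A) (M' * q))))
      (FE (inertiaField A) (M' * q)) := by
    rw [hfr]
    have h1 := dedekindPsi_pos_of_ne_zero M' (NeZero.ne M')
    positivity
  have hfin : FiniteDimensional
      (IntermediateField.adjoin (inertiaField A)
        ({xE (inertiaField A) M' q} : Set (FE (inertiaField A) (M' * q))))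
      (FE (inertiaField A) (M' * q)) := Module.finite_of_finrank_pos hpos
  have hB : A2.Alg.ChartCtx (inertiaField A) ((q : ℕ) : RE A (inertiaField A))
      (xE (inertiaField A) M' q) (chartAlg A (inertiaField A) (M' * q) (xE (inertiaField A) M' q)) :=
    ⟨hS.unif, hx', hfin, hconst, fun _ => Iff.rfl⟩
  have hv₁' := hv₁
  have hv₂' := hv₂
  rw [hgh] at hv₁' hv₂'
  obtain ⟨u₁, u₂, hu₁, hu₂, hrel⟩ := valAt_const_mul_pow_chart862 (E := inertiaField A) _
    (xE (inertiaField A) M' q) (chartAlg A (inertiaField A) (M' * q) (xE (inertiaField A) M' q))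
    hB cf c₁ hc₁ h₁ hh₁ d v₁ v₂ hv₁' hv₂'
  refine ⟨h₁, cf, u₁, u₂, hh₁, hdiv, hK, hu₁, hu₂, ?_⟩
  rw [hrel] at hdvd
  have hd' : (d : ℤ) ≠ 0 := by exact_mod_cast hd.ne'
  have h2 : ((d : ℤ) * (k : ℤ)) ∣ (d : ℤ) * (u₁ - u₂) := by
    have : ((d * k : ℕ) : ℤ) = (d : ℤ) * (k : ℤ) := by push_cast; ring
    rwa [this] at hdvd
  exact (mul_dvd_mul_iff_left hd').mp h2

/-- **`hFk`** for `F n = {x | HasSlopeZeroGen (p ^ n) q M' A x}`, VERBATIM. -/
theorem hasSlopeZeroGen_pow_succ862 (p n : ℕ) (hp : 0 < p) (hq : q.Prime) (hqM : ¬ q ∣ M')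
    (hAux : S35.G.HasAux M' q) (A : ValuationSubring Kbar) (hA : A.LiesOverPrime q)
    (x : JZero (q * M')) (hx : HasSlopeZeroGen (p ^ (n + 1)) q M' A x) (hpx : p • x = 0) :
    HasSlopeZeroGen (p ^ 1) q M' A x := by
  rw [pow_one]
  rw [pow_succ] at hx
  exact hasSlopeZeroGen_of_mul862 q M' (p ^ n) p (pow_pos hp n) hq hqM hAux A hA x hx hpx

end Level

end Fermat.Agent.S59.LoSqC.H862

end
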