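import Fermat.Agent.Lib.RR.Basic

/-!
# S59 / cell (C) LO-SQ / W-COUNT, sub-leaf NODE-REL — abstract form on a function field
(helper862)

`κ / k` a function field of one variable (Prelude `Place`, `HasPrincipalDivisors`; every place of
degree one, e.g. `k` algebraically closed), `ū ∈ κˣ`, `SS` a finite set of places ("nodes"),
`δ ∈ ℤ` ("slope"), `m ∈ ℕ`.  If

* `ord_v ū ≡ δ mod m` at every node `v ∈ SS`,
* `ord_v ū ≡ 0 mod m` at every other place,

then `m ∣ #SS · δ` (the degree of a principal divisor is zero).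

So the slope of a Kummer generator is killed by the number of nodes modulo `m`: the group of
slopes has at most `#SS` elements, for EVERY `m`.
-/

set_option autoImplicit false

noncomputable section

open AlgebraicCurve

namespace Fermat.Agent.S59.LoSqC.H862

open Fermat.Agent.Lib.RR

variable {k κ : Type*} [Field k] [Field κ] [Algebra k κ]

/-- The sum of the orders of a nonzero function over any finite set of places containing the
support of its divisor is zero. -/
theorem sum_ord_eq_zero_of_support (hpd : HasPrincipalDivisors k κ)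
    (hdeg : ∀ v : Place k κ, v.deg = 1) {ub : κ} (hub : ub ≠ 0) :
    ∃ S₀ : Finset (Place k κ), (∀ v : Place k κ, v ∉ S₀ → v.ord ub = 0) ∧
      ∀ S : Finset (Place k κ), S₀ ⊆ S → ∑ v ∈ S, v.ord ub = 0 := by
  classical
  obtain ⟨D, hD, hD0⟩ := hpd.exists_divisor ub hub
  rw [degree_eq_sum] at hD0
  have hsupp : ∀ v : Place k κ, v ∉ D.support → v.ord ub = 0 := by
    intro v hv
    rw [Finsupp.notMem_support_iff, hD] at hv
    exact hv
  refine ⟨D.support, hsupp, fun S hS => ?_⟩
  have h1 : ∑ v ∈ D.support, D v * (v.deg : ℤ) = ∑ v ∈ D.support, v.ord ub := by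
    refine Finset.sum_congr rfl fun v _ => ?_
    rw [hD, hdeg v]
    simp
  rw [h1] at hD0
  rw [← Finset.sum_subset hS (fun v _ hv => hsupp v hv)]
  exact hD0

/-- **NODE-REL, abstract form.**  If `ord_v ū ≡ δ mod m` at the places of `SS` and
`ord_v ū ≡ 0 mod m` at all other places, then `m ∣ #SS · δ`. -/
theorem node_rel_abs (hpd : HasPrincipalDivisors k κ)
    (hdeg : ∀ v : Place k κ, v.deg = 1) {ub : κ} (hub : ub ≠ 0) (m : ℕ) (δ : ℤ)
    (SS : Finset (Place k κ))
    (hnode : ∀ v ∈ SS, (m : ℤ) ∣ v.ord ub - δ)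
    (hother : ∀ v : Place k κ, v ∉ SS → (m : ℤ) ∣ v.ord ub) :
    (m : ℤ) ∣ (SS.card : ℤ) * δ := by
  classical
  obtain ⟨S₀, -, hsum⟩ := sum_ord_eq_zero_of_support hpd hdeg hub
  have h0 := hsum (S₀ ∪ SS) Finset.subset_union_left
  have h1 : (m : ℤ) ∣ ∑ v ∈ S₀ ∪ SS, (v.ord ub - if v ∈ SS then δ else 0) := by
    refine Finset.dvd_sum fun v _ => ?_
    by_cases hv : v ∈ SS
    · rw [if_pos hv]
      exact hnode v hv
    · rw [if_neg hv, sub_zero]
      exact hother v hv
  rw [Finset.sum_sub_distrib, h0, zero_sub, dvd_neg] at h1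
  have h2 : ∑ v ∈ S₀ ∪ SS, (if v ∈ SS then δ else 0) = (SS.card : ℤ) * δ := by
    rw [← Finset.sum_filter]
    have : (S₀ ∪ SS).filter (fun v => v ∈ SS) = SS := by
      ext v
      simp only [Finset.mem_filter, Finset.mem_union]
      tauto
    rw [this, Finset.sum_const, nsmul_eq_mul]
  rwa [h2] at h1

/-- **NODE-REL, counting form.**  The residues modulo `m` of the slopes form a set of at most
`#SS` elements: every slope `δ` satisfies `m ∣ #SS · δ`, so `δ mod m` lies in the
`#SS`-torsion of `ℤ / m`. -/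
theorem node_rel_zmod (hpd : HasPrincipalDivisors k κ)
    (hdeg : ∀ v : Place k κ, v.deg = 1) {ub : κ} (hub : ub ≠ 0) (m : ℕ) (δ : ℤ)
    (SS : Finset (Place k κ))
    (hnode : ∀ v ∈ SS, (m : ℤ) ∣ v.ord ub - δ)
    (hother : ∀ v : Place k κ, v ∉ SS → (m : ℤ) ∣ v.ord ub) :
    SS.card • (δ : ZMod m) = 0 := by
  have h := node_rel_abs hpd hdeg hub m δ SS hnode hother
  rw [nsmul_eq_mul]
  have h2 : (((SS.card : ℤ) * δ : ℤ) : ZMod m) = 0 :=
    (ZMod.intCast_zmod_eq_zero_iff_dvd _ m).mpr h
  push_cast at h2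
  exact h2

end Fermat.Agent.S59.LoSqC.H862

end
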