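import Fermat.Agent.Ribet.H868.TameLevel
import Fermat.Agent.S36.H987.RegPure987
import Fermat.Agent.S36.H803.R3Spec
import Fermat.Agent.Ribet.H862.StdModel

/-!
# S59 / cell (C) LO-SQ / W-COUNT, sub-leaf NODE-REL — purity of the calibrated generator for
EVERY exponent `m`, from thickness one (helper862)

`Ribet.H868.chartPureQ_calibE` proves that the calibrated Kummer generator

  `calibE w v₁ v₂ f = f¹² · (Δ(t)/Δ(t^q))^(v₁ - v₂) · w^(-12 v₁)`

is pure with exponent `m` at every closed point of the special fibre of the finite chart of level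
`M * q`, for `m` PRIME TO `12` (tame node relation at a node of thickness `e ∈ {1, 2, 3}`).

Here the same conclusion for EVERY `m > 0` (in particular `m = 3 ^ n`), from the hypothesis

  `Th1At A E M q w` = the CONCLUSION of `S36.H803.Th1Statement` (both components are locally
  principal at every node, i.e. the chart is regular at the nodes):

at a node `n` the local ring is regular (`S36.H987.pure_regular_abs987`, UFD), and the calibrated
function has `m`-divisible divisor at EVERY height-one prime of the chart (it is a unit along both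
components).  Smooth points: `Ribet.H644.exists_pureAt_smooth_of_unitAt`, as in `H868`.

* `divisibleDivisor_of_unitAt` : horizontal divisibility + unit on both components
                                 ⟹ `S18.H754.DivisibleDivisor`;
* `exists_pureAt_th1_core`     : core form (any Noetherian normal domain);
* `pureAt_th1`                 : `A2.Alg` vocabulary (`ChartCtx`, `SSChart`, `LocUnit`);
* `Th1At`                      : the thickness-one hypothesis at a datum `(A, E, M, q, w)`;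
* `chartPureQ_calibE_th1_cut`, `chartPureQ_calibE_th1` : `H868.ChartPureQ` of `calibE`, every
                                 `m > 0`.
-/

set_option autoImplicit false
set_option linter.unusedSectionVars false
set_option linter.unusedVariables false
set_option linter.style.haveILetI false
set_option synthInstance.maxHeartbeats 400000
set_option maxHeartbeats 1600000

noncomputable section

namespace Fermat.Agent.S59.LoSqC.H862

open Fermat.Agent.Ribet.H868
open Fermat.Agent.S18.H754 (DivisibleDivisor)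
open Fermat.Agent.A2.Alg.H754 (LocU)

section Core

open IsLocalRing Fermat.Agent.Ribet.H704 Fermat.Agent.A2 Fermat.Agent.A2.Alg.H132
open Fermat.Agent.A2.H849 Fermat.Agent.A2.H609

variable {B : Type} [CommRing B] [IsDomain B] [IsNoetherianRing B] [IsIntegrallyClosed B]
variable {F : Type} [Field F] [Algebra B F] [IsFractionRing B F]

/-- A function which is a unit along both components of the special fibre and whose horizontal
divisor is divisible by `m` has `m`-divisible divisor at every height-one prime. -/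
theorem divisibleDivisor_of_unitAt {w : B} (hw0 : w ≠ 0) (p₁ p₂ : Ideal B) [hp₁ : p₁.IsPrime]
    [hp₂ : p₂.IsPrime] (hinf : p₁ ⊓ p₂ = Ideal.span {w}) (m : ℕ) (G : F) (hG : G ≠ 0)
    (hdiv : ∀ V : ValuationSubring F, IsDiscreteValuationRing V →
      (∀ b : B, algebraMap B F b ∈ V) → (algebraMap B F w)⁻¹ ∈ V →
      ∃ h u₀ : F, u₀ ∈ V ∧ u₀⁻¹ ∈ V ∧ G = u₀ * h ^ m)
    (hU₁ : LocU p₁ G) (hU₂ : LocU p₂ G) : DivisibleDivisor B m G := by
  intro 𝔭 h𝔭 hht
  haveI := h𝔭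
  have hinj : Function.Injective (algebraMap B F) := IsFractionRing.injective B F
  have hwpp : w ∈ p₁ ⊓ p₂ := by
    rw [hinf]
    exact Ideal.mem_span_singleton_self _
  by_cases hw𝔭 : w ∈ 𝔭
  · -- vertical prime: one of the two components
    have hle : p₁ * p₂ ≤ 𝔭 := by
      refine le_trans Ideal.mul_le_inf ?_
      rw [hinf, Ideal.span_singleton_le_iff_mem]
      exact hw𝔭
    have key : ∀ p : Ideal B, p.IsPrime → w ∈ p → p ≤ 𝔭 → LocU p G →
        ∃ t : F, ∃ a s : B, a ∉ 𝔭 ∧ s ∉ 𝔭 ∧ G * t ^ m * algebraMap B F s = algebraMap B F a := by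
      intro p hp hwp hp𝔭 hU
      haveI := hp
      haveI : p.FiniteHeight := Ideal.finiteHeight_of_isNoetherianRing p
      have hpeq : p = 𝔭 := by
        refine Ideal.eq_of_le_of_height_le p hp𝔭 ?_
        rw [hht, Order.one_le_iff_pos, pos_iff_ne_zero, Ne, Ideal.height_eq_zero_iff_eq_bot]
        intro h0
        rw [h0, Ideal.mem_bot] at hwp
        exact hw0 hwp
      subst hpeq
      obtain ⟨a, b, ha, hb, hab⟩ := hU
      exact ⟨1, a, b, ha, hb, by rw [one_pow, mul_one]; exact hab⟩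
    rcases (Ideal.IsPrime.mul_le h𝔭).1 hle with h | h
    · exact key p₁ hp₁ hwpp.1 h hU₁
    · exact key p₂ hp₂ hwpp.2 h hU₂
  · -- horizontal prime: `B_𝔭` is a DVR containing `B[1/w]`
    obtain ⟨W, hdvr, hW⟩ := Fermat.Agent.S18.H438.exists_dvr_of_height_one (F := F) 𝔭 hht
    have h1𝔭 : (1 : B) ∉ 𝔭 := fun h1 => h𝔭.ne_top ((Ideal.eq_top_iff_one _).2 h1)
    have hwF : algebraMap B F w ≠ 0 := fun h0 => hw0 (hinj (by rw [h0, map_zero]))
    have hBW : ∀ b : B, algebraMap B F b ∈ W := fun b =>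
      (hW _).2 ⟨b, 1, h1𝔭, by rw [map_one, mul_one]⟩
    have hwW : (algebraMap B F w)⁻¹ ∈ W :=
      (hW _).2 ⟨1, w, hw𝔭, by rw [inv_mul_cancel₀ hwF, map_one]⟩
    obtain ⟨h, u₀, hu₀, hu₀', hu⟩ := hdiv W hdvr hBW hwW
    have hu₀0 : u₀ ≠ 0 := by
      rintro rfl
      rw [zero_mul] at hu
      exact hG hu
    have hh0 : h ^ m ≠ 0 := by
      intro h0
      rw [h0, mul_zero] at hu
      exact hG hu
    obtain ⟨a, s, ha, hs', has⟩ :=
      (Fermat.Agent.A2.Alg.H754.locU_iff_of_valuationSubring 𝔭 W hW hu₀0).2 ⟨hu₀, hu₀'⟩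
    refine ⟨h⁻¹, a, s, ha, hs', ?_⟩
    rw [hu, inv_pow, mul_assoc u₀, mul_inv_cancel₀ hh0, mul_one]
    exact has

/-- **Purity of the calibrated function at every closed point of the special fibre, from
thickness one** (core form): no condition on `m` and `N`. -/
theorem exists_pureAt_th1_core {w : B} {m N : ℕ} (hm : m ≠ 0) (hN : 0 < N)
    (p₁ p₂ n : Ideal B) [p₁.IsPrime] [p₂.IsPrime] (hn : n.IsMaximal)
    [IsDedekindDomain (B ⧸ p₁)] [IsDedekindDomain (B ⧸ p₂)]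
    (hinf : p₁ ⊓ p₂ = Ideal.span {w}) (h₁₂ : ¬ p₁ ≤ p₂) (h₂₁ : ¬ p₂ ≤ p₁) (hwn : w ∈ n)
    (hth1 : p₁ ≤ n → p₂ ≤ n →
      ∃ x₁ ∈ p₁, ∀ a ∈ p₁, ∃ g : B, g ∉ n ∧ ∃ b : B, g * a = x₁ * b)
    (D₁ D₂ : B) (hDD : D₁ * D₂ = w ^ N) (hD₁ : D₁ ∉ p₁) (hD₂ : D₂ ∉ p₂)
    (f : F) (hf : f ≠ 0)
    (hdiv : ∀ V : ValuationSubring F, IsDiscreteValuationRing V →
      (∀ b : B, algebraMap B F b ∈ V) → (algebraMap B F w)⁻¹ ∈ V →
      ∃ h u₀ : F, u₀ ∈ V ∧ u₀⁻¹ ∈ V ∧ f = u₀ * h ^ m)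
    (v₁ v₂ : ℤ) (hv₁ : I6.ValAt F p₁ w f v₁) (hv₂ : I6.ValAt F p₂ w f v₂) :
    ∃ d : F, d ≠ 0 ∧ ∃ a b : B, a ∉ n ∧ b ∉ n ∧
      calib w D₁ N v₁ v₂ f * d ^ m * algebraMap B F b = algebraMap B F a := by
  haveI hnp : n.IsPrime := hn.isPrime
  have hw0 : w ≠ 0 := Fermat.Agent.A2.H609.ne_zero_of_inf_eq_span p₁ p₂ hinf h₁₂ h₂₁
  have hV₁ : VertData w p₁ p₂ := ⟨inferInstance, hw0, h₂₁, hinf⟩
  have hV₂ : VertData w p₂ p₁ := ⟨inferInstance, hw0, h₁₂, by rw [inf_comm]; exact hinf⟩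
  have hD₁0 : D₁ ≠ 0 := fun h0 => hD₁ (h0 ▸ p₁.zero_mem)
  have hG0 : calib w D₁ N v₁ v₂ f ≠ 0 := calib_ne_zero hw0 hD₁0 N v₁ v₂ hf
  have hG₁ := valAt_calib₁ (N := N) hV₁ hD₁ hv₁ v₂
  have hG₂ := valAt_calib₂ hV₂ hDD hD₂ v₁ hv₂
  have hU₁ : UnitAt p₁ (calib w D₁ N v₁ v₂ f) := by
    obtain ⟨a, b, ha, hb, hab⟩ := hG₁
    exact ⟨a, b, ha, hb, by rw [hab, zpow_zero, one_mul]⟩
  have hU₂ : UnitAt p₂ (calib w D₁ N v₁ v₂ f) := by
    obtain ⟨a, b, ha, hb, hab⟩ := hG₂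
    exact ⟨a, b, ha, hb, by rw [hab, zpow_zero, one_mul]⟩
  have hL₁ : LocU p₁ (calib w D₁ N v₁ v₂ f) := by
    obtain ⟨a, b, ha, hb, hab⟩ := hG₁
    exact ⟨a, b, ha, hb, by rw [hab, zpow_zero, one_mul]⟩
  have hL₂ : LocU p₂ (calib w D₁ N v₁ v₂ f) := by
    obtain ⟨a, b, ha, hb, hab⟩ := hG₂
    exact ⟨a, b, ha, hb, by rw [hab, zpow_zero, one_mul]⟩
  have hGdiv := hdiv_calib hw0 hN hDD hdiv v₁ v₂
  have hor : p₁ ≤ n ∨ p₂ ≤ n := by
    have hle : p₁ * p₂ ≤ n := by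
      refine le_trans Ideal.mul_le_inf ?_
      rw [hinf, Ideal.span_le, Set.singleton_subset_iff]
      exact hwn
    exact (Ideal.IsPrime.mul_le inferInstance).1 hle
  by_cases hboth : p₁ ≤ n ∧ p₂ ≤ n
  · -- a node: the local ring is regular
    obtain ⟨x₁, hx₁p, hgen⟩ := hth1 hboth.1 hboth.2
    have hx₁0 : x₁ ≠ 0 := by
      rintro rfl
      obtain ⟨g, hg, b, hgb⟩ := hgen w hV₁.w_mem
      rw [zero_mul] at hgb
      rcases mul_eq_zero.1 hgb with h | h
      · exact hg (h ▸ n.zero_mem)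
      · exact hw0 h
    have hdivisor : DivisibleDivisor B m (calib w D₁ N v₁ v₂ f) :=
      divisibleDivisor_of_unitAt hw0 p₁ p₂ hinf m _ hG0 hGdiv hL₁ hL₂
    obtain ⟨d, hd0, a, b, ha, hb, hab⟩ :=
      Fermat.Agent.S36.H987.pure_regular_abs987 x₁ hx₁0 p₁ n hn hboth.1 hx₁p hgen inferInstance
        m (Nat.pos_of_ne_zero hm) _ hG0 hdivisor
    exact ⟨d, hd0, a, b, ha, hb, hab⟩
  rcases hor with h | h
  · have h2 : ¬ p₂ ≤ n := fun h' => hboth ⟨h, h'⟩
    by_cases hne : p₁ = n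
    · obtain ⟨a, b, ha, hb, hab⟩ := hL₁
      exact ⟨1, one_ne_zero, a, b, hne ▸ ha, hne ▸ hb, by rw [one_pow, mul_one, hab]⟩
    · obtain ⟨d, hd, hdn, -, -⟩ :=
        Fermat.Agent.Ribet.H644.exists_pureAt_smooth_of_unitAt (B := B) (F := F) hm p₁ p₂ n
          hinf h₁₂ h₂₁ h hne h2 _ hGdiv hU₁
      exact ⟨d, hd, hdn⟩
  · have h2 : ¬ p₁ ≤ n := fun h' => hboth ⟨h', h⟩
    by_cases hne : p₂ = n
    · obtain ⟨a, b, ha, hb, hab⟩ := hL₂
      exact ⟨1, one_ne_zero, a, b, hne ▸ ha, hne ▸ hb, by rw [one_pow, mul_one, hab]⟩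
    · obtain ⟨d, hd, hdn, -, -⟩ :=
        Fermat.Agent.Ribet.H644.exists_pureAt_smooth_of_unitAt (B := B) (F := F) hm p₂ p₁ n
          (by rw [inf_comm]; exact hinf) h₂₁ h₁₂ h hne h2 _ hGdiv hU₂
      exact ⟨d, hd, hdn⟩

end Core

section AlgChart

open IsLocalRing Fermat.Agent.Ribet.H704 Fermat.Agent.A2 Fermat.Agent.A2.Alg.H132
open Fermat.Agent.A2.H849 Fermat.Agent.A2.H609
open Fermat.Agent.A2.Alg Fermat.Agent.A2.Alg.H609

variable {R E F : Type} [CommRing R] [IsDomain R] [IsDiscreteValuationRing R]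
  [Field E] [CharZero E] [Algebra R E] [IsFractionRing R E]
  [Field F] [Algebra E F] [Algebra R F] [IsScalarTower R E F]

/-- **Purity on a chart from thickness one** (`A2.Alg` vocabulary): the calibrated Kummer
generator is pure with exponent `m` at every closed point of the special fibre of a semistable
chart carrying a unit pair, if the first component is locally principal at the nodes.
No condition on `m`. -/
theorem pureAt_th1 (m N : ℕ) (hm : 0 < m) (hN : 0 < N)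
    (w : R) (x : F) (B : Subalgebra R F) (hB : ChartCtx E w x B) (c : SSChart w B)
    (D₁ D₂ : B) (hDD : D₁ * D₂ = (algebraMap R B w) ^ N) (hD₁ : D₁ ∉ c.p₁) (hD₂ : D₂ ∉ c.p₂)
    (f : F) (hf : f ≠ 0) (hdiv : DivisibleDiv E m f)
    (v₁ v₂ : ℤ) (hv₁ : I6.ValAt F c.p₁ (algebraMap R B w) f v₁)
    (hv₂ : I6.ValAt F c.p₂ (algebraMap R B w) f v₂)
    (n : Ideal B) (hn : n.IsMaximal) (hwn : algebraMap R B w ∈ n)
    (hth1 : c.p₁ ≤ n → c.p₂ ≤ n →
      ∃ x₁ ∈ c.p₁, ∀ a ∈ c.p₁, ∃ g : B, g ∉ n ∧ ∃ b : B, g * a = x₁ * b) :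
    ∃ d : F, d ≠ 0 ∧ LocUnit B n (calib (algebraMap R B w) D₁ N v₁ v₂ f * d ^ m) := by
  obtain ⟨hnoeth, hic, hfrac⟩ := H34.chart_instances' w x B hB
  have hp₁ : c.p₁.IsPrime := c.prime₁
  have hp₂ : c.p₂.IsPrime := c.prime₂
  have hn₁ : IsIntegrallyClosed (B ⧸ c.p₁) := c.normal₁
  have hn₂ : IsIntegrallyClosed (B ⧸ c.p₂) := c.normal₂
  have hw : algebraMap R B w ∈ c.p₁ ⊓ c.p₂ := by
    rw [c.inf_eq]
    exact Ideal.mem_span_singleton_self _
  have hd₁ : IsDedekindDomain (B ⧸ c.p₁) := isDedekindDomain_quotient_chart w x B hB c.p₁ hw.1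
  have hd₂ : IsDedekindDomain (B ⧸ c.p₂) := isDedekindDomain_quotient_chart w x B hB c.p₂ hw.2
  obtain ⟨d, hd, a, b, ha, hb, hab⟩ :=
    exists_pureAt_th1_core (B := B) (F := F) hm.ne' hN c.p₁ c.p₂ n hn c.inf_eq
      c.not_le₁₂ c.not_le₂₁ hwn hth1 D₁ D₂ hDD hD₁ hD₂ f hf
      (Fermat.Agent.A2.Alg.H609.hdiv_of_divisibleDiv w hB.hw B m f hdiv) v₁ v₂ hv₁ hv₂
  exact ⟨d, hd, a, b, ha, hb, hab⟩

end AlgChart

section Level

open ModularCurve AlgebraicCurve HahnSeries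
open Fermat.Agent.A2.Mod
open Fermat.Agent.Ribet.H704 (I6.ValAt)

variable (A : ValuationSubring (AlgebraicClosure ℚ))
  (E : IntermediateField ℚ (AlgebraicClosure ℚ)) (M q : ℕ) [NeZero M] [NeZero q]

/-- **Thickness one at a datum**: the CONCLUSION of `S36.H803.Th1Statement`, verbatim — both
components of the special fibre of the finite chart are locally principal at every node. -/
def Th1At (w : RE A E) : Prop :=
  ∀ p₁ p₂ : Ideal (S36.H803.Bfin A E M q), S36.H803.IsComponents A E M q w p₁ p₂ →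
    ∀ n : Ideal (S36.H803.Bfin A E M q), S36.H803.IsNode A E M q p₁ p₂ n →
      (∃ x₁ ∈ p₁, ∀ a ∈ p₁, ∃ g : S36.H803.Bfin A E M q, g ∉ n ∧ ∃ b, g * a = x₁ * b) ∧
      (∃ x₂ ∈ p₂, ∀ a ∈ p₂, ∃ g : S36.H803.Bfin A E M q, g ∉ n ∧ ∃ b, g * a = x₂ * b)

/-- `S36.H803.Th1Statement` gives `Th1At` under its standing hypotheses. -/
theorem th1At_of_statement (w : RE A E) (h : S36.H803.Th1Statement A E M q w)
    (hR : S36.H803.R3Hyp A E M q w) (hU : S36.H803.Unram A E q w) (hRig : S36.H803.Rigid M) :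
    Th1At A E M q w :=
  h hR hU hRig

/-- **Stage A for every exponent**, along a chart structure with cut data.  Purity of the
calibrated function at every closed point of the special fibre of the finite chart, at a level
where `q` is a uniformiser and the chart has thickness one at the nodes. -/
theorem chartPureQ_calibE_th1_cut (m : ℕ) (hm : 0 < m) (w : RE A E)
    (hS : Setting A E M q w) (hE : A2.GoodField A E)
    (hwq : (w : E) = (q : E)) (hTh1 : Th1At A E M q w)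
    (V : ValuationSubring (FE E (M * q))) (W : FE E (M * q) ≃ₐ[E] FE E (M * q))
    (hV : IsVinf A E (M * q) V) (hW : IsFricke E (M * q) W)
    (hDeg : DegStatement E M q)
    (cf : A2.SSChart w (chartAlg A E (M * q) (xE E M q)))
    (hcf : S35.G.CutBy w (chartAlg A E (M * q) (xE E M q)) cf V
      (V.comap (W : FE E (M * q) →+* FE E (M * q))))
    (f : FE E (M * q)) (hf : f ≠ 0) (hdiv : A2.DivisibleDiv E m f) (v₁ v₂ : ℤ)
    (hv₁ : I6.ValAt (FE E (M * q)) cf.p₁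
      (algebraMap ↥(RE A E) ↥(chartAlg A E (M * q) (xE E M q)) w) f v₁)
    (hv₂ : I6.ValAt (FE E (M * q)) cf.p₂
      (algebraMap ↥(RE A E) ↥(chartAlg A E (M * q) (xE E M q)) w) f v₂) :
    ChartPureQ A E M q m w (calibE A E M q w v₁ v₂ f) := by
  haveI : IsDiscreteValuationRing ↥(RE A E) := hS.dvr
  have hq : q.Prime := hS.q_prime
  have hN : M * q ≠ 0 := mul_ne_zero hS.M_ne_zero hq.ne_zero
  obtain ⟨hx, hfr, hconst⟩ := hDeg hq hS.q_not_dvd
  have hpos : 0 < Module.finrank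
      (IntermediateField.adjoin E ({xE E M q} : Set (FE E (M * q))))
      (FE E (M * q)) := by
    rw [hfr]
    have h1 := dedekindPsi_pos_of_ne_zero M (NeZero.ne M)
    positivity
  have hfin : FiniteDimensional
      (IntermediateField.adjoin E ({xE E M q} : Set (FE E (M * q))))
      (FE E (M * q)) := Module.finite_of_finrank_pos hpos
  have hB : A2.Alg.ChartCtx E w (xE E M q) (chartAlg A E (M * q) (xE E M q)) :=
    ⟨hS.unif, hx, hfin, hconst, fun _ => Iff.rfl⟩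
  -- the constant `w` is not invertible in `V∞`, `V₀`
  obtain ⟨hunif, hVE, -⟩ := H553.vinfBasic A E w (M * q) hN hS.dvr hS.unif V hV
  have hwV : (cE A E (M * q) w)⁻¹ ∉ V := hunif.inv_not_mem
  have hwV₀ : (cE A E (M * q) w)⁻¹ ∉ V.comap (W : FE E (M * q) →+* FE E (M * q)) := by
    intro h
    apply hwV
    have h1 : W ((cE A E (M * q) w)⁻¹) ∈ V := h
    have hWc : W (cE A E (M * q) w) = cE A E (M * q) w := W.commutes (w : E)
    rw [map_inv₀, hWc] at h1
    exact h1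
  -- the unit pair
  obtain ⟨-, hu1'⟩ := S36.H438.uE'_unit_vinf A E (M * q) q (dvd_mul_left q M) hV
  obtain ⟨-, hd1'⟩ := S36.H438.dE_unit_vzero A E (M * q) q M (Nat.mul_comm M q)
    (dvd_mul_left q M) W hV hW
  have hDD := chartD_mul A E M q hq w hwq
  have hD₁ := chartD₁_notMem A E M q hq w cf V _ hcf hu1' hwV
  have hD₂ := chartD₂_notMem A E M q hq w cf V _ hcf hd1' hwV₀
  -- the components of the chart, in the vocabulary of `S36.H803`
  have hcomp : S36.H803.IsComponents A E M q w cf.p₁ cf.p₂ :=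
    ⟨V, W, hV, hW, hcf.cut₁, hcf.cut₂⟩
  intro n hn hwn
  obtain ⟨d, hd, hu⟩ := pureAt_th1 (E := E) m 12 hm (by norm_num) w (xE E M q)
    (chartAlg A E (M * q) (xE E M q)) hB cf (chartD₁ A E M q hq) (chartD₂ A E M q hq) hDD hD₁
    hD₂ f hf hdiv v₁ v₂ hv₁ hv₂ n hn hwn
    (fun h₁ h₂ => (hTh1 cf.p₁ cf.p₂ hcomp n ⟨hn, h₁, h₂⟩).1)
  rw [calib_eq_calibE] at hu
  refine ⟨d, 0, hd, ?_⟩
  rw [zpow_zero, mul_one]
  exact hu

/-- **Stage A for every exponent**, for ANY semistable chart structure `cf₀` on the finite chart: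
the branch valuations `(v₁, v₂)` of `f` along `cf₀`, in one of the two orders, calibrate `f` to a
function which is pure with exponent `m` at every closed point of the special fibre. -/
theorem chartPureQ_calibE_th1 (m : ℕ) (hm : 0 < m) (w : RE A E)
    (hS : Setting A E M q w) (hE : A2.GoodField A E) (hAux : S35.G.HasAux M q)
    (hwq : (w : E) = (q : E)) (hTh1 : Th1At A E M q w)
    (cf₀ : A2.SSChart w (chartAlg A E (M * q) (xE E M q)))
    (f : FE E (M * q)) (hf : f ≠ 0) (hdiv : A2.DivisibleDiv E m f) (v₁ v₂ : ℤ)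
    (hv₁ : I6.ValAt (FE E (M * q)) cf₀.p₁
      (algebraMap ↥(RE A E) ↥(chartAlg A E (M * q) (xE E M q)) w) f v₁)
    (hv₂ : I6.ValAt (FE E (M * q)) cf₀.p₂
      (algebraMap ↥(RE A E) ↥(chartAlg A E (M * q) (xE E M q)) w) f v₂) :
    ∃ w₁ w₂ : ℤ, ((w₁ = v₁ ∧ w₂ = v₂) ∨ (w₁ = v₂ ∧ w₂ = v₁)) ∧
      ChartPureQ A E M q m w (calibE A E M q w w₁ w₂ f) := by
  obtain ⟨V, W, VM, hV, hW, hVM, hg1, hg2, hDeg, cf, ci, hcf, hci⟩ :=
    S35.G.H862.modelNoSep A E M q w hS hE hAux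
  rcases Ribet.H862.components_unique cf₀ cf with ⟨h₁, h₂⟩ | ⟨h₁, h₂⟩
  · refine ⟨v₁, v₂, Or.inl ⟨rfl, rfl⟩, ?_⟩
    exact chartPureQ_calibE_th1_cut A E M q m hm w hS hE hwq hTh1 V W hV hW hDeg cf hcf f hf hdiv
      v₁ v₂ (h₁ ▸ hv₁) (h₂ ▸ hv₂)
  · refine ⟨v₂, v₁, Or.inr ⟨rfl, rfl⟩, ?_⟩
    exact chartPureQ_calibE_th1_cut A E M q m hm w hS hE hwq hTh1 V W hV hW hDeg cf hcf f hf hdiv
      v₂ v₁ (h₂ ▸ hv₂) (h₁ ▸ hv₁)

end Level

end Fermat.Agent.S59.LoSqC.H862

end
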