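import Fermat.Agent.S59.LoSqC.H862.NodeRelCard
import Fermat.Agent.S36.Eng.Spec

/-!
# S59 / cell (C) LO-SQ / W-COUNT, leaf SLOPE-CARD in the frozen `E`-vocabulary (helper862)

Level `M q` ON BOTH SIDES (`J₀(M q)` and `F_E(M q)`), `q ∤ M`, `P` over `q`, `E` a good level,
`w` ANY uniformiser of `R_E = P ∩ E`, `q = ε w` (`S36.H803.Unram`), `V = V∞` (`IsVinf`),
`W` the Fricke involution (`IsFricke`), `V₀ = V.comap W`, thickness one at the nodes of the finite
chart as a hypothesis (`Th1At`, at the uniformiser `w`).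

* `unitAt_of_valAt862` : branch valuation on a chart whose component is cut out by `V`
  ⟹ `UnitAt V (g / w ^ v)`.
* **`slopeCardE_gen862`** : `I ≤ J₀(M q)` a subgroup of classes which have an `E`-rational Kummer
  generator of exponent `m` (hypothesis `hgen`), `F` a subgroup containing the classes `z ∈ I`
  which have an `E`-rational Kummer generator `g` (body of `LoSqC.IsKummerGenE`) with
  `A2.DivisibleDiv E m g` and E-slope zero (body of `LoSqC.SlopeZero w m V V₀ g`).  Then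

    `Nat.card I ≤ ((q - 1) · ψ(M)) · Nat.card ↥(F ⊓ I)`.

* **`slopeCardE862`** : the same with `E = ℚ̄^{I_P}` (the inertia field, written as the fixed field
  `= LoSqC.inertiaFldC P`) for a subgroup `I` of inertia-fixed `m`-torsion classes
  (descent `Ribet.H868.exists_fixed_kummerGen_aux`).

The bodies of `LoSqC.IsKummerGenE` and `LoSqC.SlopeZero` (frozen Spec of helper885) are written
INLINE, so that this file imports main files only.
-/

set_option autoImplicit false
set_option linter.unusedSectionVars false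
set_option linter.unusedVariables false
set_option linter.style.haveILetI false
set_option synthInstance.maxHeartbeats 400000
set_option maxHeartbeats 1600000

noncomputable section

open AlgebraicCurve

namespace Fermat.Agent.S59.LoSqC.H862

/-! ## Units of a valuation ring -/

section AbsUnit

open Fermat.Agent.S36.Eng (UnitAt)

variable {F : Type*} [Field F]

theorem unitAt_one862 (V : ValuationSubring F) : UnitAt V (1 : F) :=
  ⟨one_ne_zero, V.one_mem, by rw [inv_one]; exact V.one_mem⟩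

theorem unitAt_mul862 {V : ValuationSubring F} {a b : F} (ha : UnitAt V a) (hb : UnitAt V b) :
    UnitAt V (a * b) :=
  ⟨mul_ne_zero ha.1 hb.1, V.mul_mem _ _ ha.2.1 hb.2.1, by
    rw [mul_inv]; exact V.mul_mem _ _ ha.2.2 hb.2.2⟩

theorem unitAt_inv862 {V : ValuationSubring F} {a : F} (ha : UnitAt V a) : UnitAt V a⁻¹ :=
  ⟨inv_ne_zero ha.1, ha.2.2, by rw [inv_inv]; exact ha.2.1⟩

theorem unitAt_pow862 {V : ValuationSubring F} {a : F} (ha : UnitAt V a) (n : ℕ) :
    UnitAt V (a ^ n) := by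
  induction n with
  | zero => rw [pow_zero]; exact unitAt_one862 V
  | succ n ih => rw [pow_succ]; exact unitAt_mul862 ih ha

theorem unitAt_zpow862 {V : ValuationSubring F} {a : F} (ha : UnitAt V a) (k : ℤ) :
    UnitAt V (a ^ k) := by
  cases k with
  | ofNat n => rw [Int.ofNat_eq_natCast, zpow_natCast]; exact unitAt_pow862 ha n
  | negSucc n => rw [zpow_negSucc]; exact unitAt_inv862 (unitAt_pow862 ha (n + 1))

/-- Multiplication by a unit does not change membership. -/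
theorem mul_unitAt_mem_iff862 {V : ValuationSubring F} {u x : F} (hu : UnitAt V u) :
    x * u ∈ V ↔ x ∈ V := by
  constructor
  · intro h
    have h1 := V.mul_mem _ _ h hu.2.2
    rwa [mul_assoc, mul_inv_cancel₀ hu.1, mul_one] at h1
  · intro h
    exact V.mul_mem _ _ h hu.2.1

/-- An element of `V` outside `ϖ V` is a unit. -/
theorem unitAt_of_isUnif862 {V : ValuationSubring F} {ϖ a : F}
    (hϖ : Fermat.Agent.A2.H48.IsUnif V ϖ) (ha : a ∈ V) (ha' : a * ϖ⁻¹ ∉ V) : UnitAt V a := by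
  refine ⟨?_, ha, ?_⟩
  · rintro rfl
    apply ha'
    rw [zero_mul]
    exact V.zero_mem
  · by_contra h
    exact ha' (hϖ.gen a ha h)

end AbsUnit

/-! ## Branch valuations and valuation rings -/

section Bridge

open Fermat.Agent.S36.Eng (UnitAt)
open Fermat.Agent.Ribet.H704 (I6.ValAt)

variable {R F : Type*} [CommRing R] [Field F] [Algebra R F]

/-- **Bridge**: on a chart `B` whose component `p` is cut out by the valuation ring `V` with
uniformiser `w`, a branch valuation `v` of `g` along `p` gives `UnitAt V (g / w ^ v)`. -/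
theorem unitAt_of_valAt862 (B : Subalgebra R F) (p : Ideal B) (w : R) (V : ValuationSubring F)
    (hle : ∀ b ∈ B, b ∈ V)
    (hcut : ∀ b : B, b ∈ p ↔ (b : F) * (algebraMap R F w)⁻¹ ∈ V)
    (hunif : Fermat.Agent.A2.H48.IsUnif V (algebraMap R F w)) (g : F) (v : ℤ)
    (h : I6.ValAt F p (algebraMap R B w) g v) :
    UnitAt V (g * (algebraMap R F w ^ v)⁻¹) := by
  obtain ⟨a, b, ha, hb, hab⟩ := h
  have hw0 : algebraMap R F w ≠ 0 := by
    intro h0
    apply hunif.inv_not_mem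
    rw [h0, inv_zero]
    exact V.zero_mem
  have hua : UnitAt V (a : F) :=
    unitAt_of_isUnif862 hunif (hle _ a.2) (fun h => ha ((hcut a).mpr h))
  have hub : UnitAt V (b : F) :=
    unitAt_of_isUnif862 hunif (hle _ b.2) (fun h => hb ((hcut b).mpr h))
  have hab' : g * (b : F) = algebraMap R F w ^ v * (a : F) := hab
  have hwv : algebraMap R F w ^ v ≠ 0 := zpow_ne_zero _ hw0
  have e : g * (algebraMap R F w ^ v)⁻¹ = (a : F) * (b : F)⁻¹ := by
    have hb0 : (b : F) ≠ 0 := hub.1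
    rw [eq_mul_inv_iff_mul_eq₀ hb0, mul_right_comm, hab', mul_comm (algebraMap R F w ^ v),
      mul_assoc, mul_inv_cancel₀ hwv, mul_one]
  rw [e]
  exact unitAt_mul862 hua (unitAt_inv862 hub)

end Bridge

/-! ## The level `M q` -/

section Level

open ModularCurve HahnSeries
open Fermat.Agent.S24 Fermat.Agent.Ribet.H884 Fermat.Agent.Ribet.H158.WallQ
open Fermat.Agent.A2.Mod Fermat.Agent.Ribet.H868
open Fermat.Agent.Ribet.H704 (I6.ValAt)
open Fermat.Agent.A2.T1.H669 (iota)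
open Fermat.Agent.S36.Eng (UnitAt)

/-- Change of the name of the level in the divisibility of the divisor over `ℚ̄`. -/
theorem dvd_ord_toFF_of_iota862 (E : IntermediateField ℚ (AlgebraicClosure ℚ)) {N N' : ℕ}
    [NeZero N] [NeZero N'] (h : N = N') (m : ℕ) (g : FE E N)
    (hg : ∀ v : Place Kbar (FF N), (m : ℤ) ∣ v.ord (iota E (modularFunctionFieldFull N) g)) :
    ∀ v : Place Kbar (FF N'), (m : ℤ) ∣ v.ord (toFF E h g) := by
  subst h
  exact hg

variable (P : ValuationSubring (AlgebraicClosure ℚ))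
  (E : IntermediateField ℚ (AlgebraicClosure ℚ)) (M q : ℕ) [NeZero M] [NeZero q]

/-- Constants which are units of `R_E` are units of `V∞`. -/
theorem unitAt_cE_of_isUnit862 (N : ℕ) (V : ValuationSubring (FE E N))
    (hVE : ∀ e : E, algebraMap E (FE E N) e ∈ V ↔ e ∈ RE P E) (u : RE P E) (hu : IsUnit u) :
    UnitAt V (cE P E N u) := by
  obtain ⟨u', rfl⟩ := hu
  have h1 : ((u' : RE P E) : E) * (((u'⁻¹ : (RE P E)ˣ) : RE P E) : E) = 1 := by
    have := congrArg (fun r : RE P E => (r : E)) u'.mul_inv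
    exact this
  have hne : ((u' : RE P E) : E) ≠ 0 := left_ne_zero_of_mul_eq_one h1
  have hinv : (((u' : RE P E) : E))⁻¹ = (((u'⁻¹ : (RE P E)ˣ) : RE P E) : E) :=
    inv_eq_of_mul_eq_one_right h1
  refine ⟨?_, ?_, ?_⟩
  · exact (map_ne_zero (algebraMap E (FE E N))).mpr hne
  · exact (hVE _).mpr (u' : RE P E).2
  · show (algebraMap E (FE E N) ((u' : RE P E) : E))⁻¹ ∈ V
    rw [← map_inv₀, hinv]
    exact (hVE _).mpr ((u'⁻¹ : (RE P E)ˣ) : RE P E).2

/-- The Fricke transform of `V∞` contains the same constants. -/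
theorem const_mem_comap862 (N : ℕ) (V : ValuationSubring (FE E N)) (W : FE E N ≃ₐ[E] FE E N)
    (hVE : ∀ e : E, algebraMap E (FE E N) e ∈ V ↔ e ∈ RE P E) :
    ∀ e : E, algebraMap E (FE E N) e ∈ V.comap (W : FE E N →+* FE E N) ↔ e ∈ RE P E := by
  intro e
  rw [ValuationSubring.mem_comap]
  have : (W : FE E N →+* FE E N) (algebraMap E (FE E N) e) = algebraMap E (FE E N) e :=
    W.commutes e
  rw [this]
  exact hVE e

/-- `w` is a uniformiser of the Fricke transform of `V∞`. -/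
theorem isUnif_comap862 (N : ℕ) (V : ValuationSubring (FE E N)) (W : FE E N ≃ₐ[E] FE E N)
    (w : RE P E) (h : Fermat.Agent.A2.H48.IsUnif V (cE P E N w)) :
    Fermat.Agent.A2.H48.IsUnif (V.comap (W : FE E N →+* FE E N)) (cE P E N w) := by
  have hWc : W (cE P E N w) = cE P E N w := W.commutes (w : E)
  refine ⟨?_, ?_, ?_⟩
  · rw [ValuationSubring.mem_comap]
    show W (cE P E N w) ∈ V
    rw [hWc]
    exact h.mem
  · intro h1
    apply h.inv_not_mem
    rw [ValuationSubring.mem_comap] at h1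
    have h2 : W ((cE P E N w)⁻¹) ∈ V := h1
    rwa [map_inv₀, hWc] at h2
  · intro f hf hf'
    rw [ValuationSubring.mem_comap] at hf ⊢
    have h1 : W f ∈ V := hf
    have h2 : (W f)⁻¹ ∉ V := by
      intro h3
      apply hf'
      rw [ValuationSubring.mem_comap]
      show W f⁻¹ ∈ V
      rw [map_inv₀]
      exact h3
    show W (f * (cE P E N w)⁻¹) ∈ V
    rw [map_mul, map_inv₀, hWc]
    exact h.gen _ h1 h2

/-- Thickness one does not depend on the uniformiser. -/
theorem th1At_of_assoc862 (hdvr : IsDiscreteValuationRing (RE P E)) (w w₀ ε : RE P E)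
    (hw : Irreducible w) (hε : IsUnit ε) (h : w₀ = ε * w) (hN : M * q ≠ 0)
    (hTh1 : Th1At P E M q w) : Th1At P E M q w₀ := by
  intro p₁ p₂ hc n hn
  refine hTh1 p₁ p₂ ?_ n hn
  obtain ⟨V, W, hV, hW, c₁, c₂⟩ := hc
  obtain ⟨-, hVE, -⟩ := H553.vinfBasic P E w (M * q) hN hdvr hw V hV
  have hVE' := const_mem_comap862 P E (M * q) V W hVE
  have hu : UnitAt V (cE P E (M * q) ε) := unitAt_cE_of_isUnit862 P E (M * q) V hVE ε hε
  have hu' : UnitAt (V.comap (W : FE E (M * q) →+* FE E (M * q))) (cE P E (M * q) ε) :=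
    unitAt_cE_of_isUnit862 P E (M * q) _ hVE' ε hε
  have hc0 : cE P E (M * q) w₀ = cE P E (M * q) ε * cE P E (M * q) w := by
    rw [h]
    show algebraMap E (FE E (M * q)) ((ε * w : RE P E) : E) = _
    rw [show ((ε * w : RE P E) : E) = (ε : E) * (w : E) from rfl, map_mul]
    rfl
  have key : ∀ (V' : ValuationSubring (FE E (M * q))), UnitAt V' (cE P E (M * q) ε) →
      ∀ b : FE E (M * q), b * (cE P E (M * q) w₀)⁻¹ ∈ V' ↔ b * (cE P E (M * q) w)⁻¹ ∈ V' := by
    intro V' hV' b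
    have e : b * (cE P E (M * q) w₀)⁻¹ = b * (cE P E (M * q) w)⁻¹ * (cE P E (M * q) ε)⁻¹ := by
      rw [hc0, mul_inv, mul_assoc, mul_comm (cE P E (M * q) ε)⁻¹]
    rw [e]
    exact mul_unitAt_mem_iff862 (unitAt_inv862 hV')
  refine ⟨V, W, hV, hW, fun b => (c₁ b).trans (key V hu b), fun b => (c₂ b).trans (key _ hu' b)⟩

/-- A chart structure on the finite chart whose components are cut out by the GIVEN `V∞` and
`V₀ = V∞ ∘ W`, in this order, with the chart context. -/
theorem exists_chart_cut862 (w : RE P E) (hS : Setting P E M q w) (hE : A2.GoodField P E)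
    (hAux : S35.G.HasAux M q)
    (V : ValuationSubring (FE E (M * q))) (W : FE E (M * q) ≃ₐ[E] FE E (M * q))
    (hV : IsVinf P E (M * q) V) (hW : IsFricke E (M * q) W) :
    A2.Alg.ChartCtx E w (xE E M q) (chartAlg P E (M * q) (xE E M q)) ∧
    ∃ cf : A2.SSChart w (chartAlg P E (M * q) (xE E M q)),
      S35.G.CutBy w (chartAlg P E (M * q) (xE E M q)) cf V
        (V.comap (W : FE E (M * q) →+* FE E (M * q))) := by
  haveI : IsDiscreteValuationRing ↥(RE P E) := hS.dvr
  have hq : q.Prime := hS.q_prime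
  obtain ⟨VM, hVM⟩ := H553.vinfExists P E M hS.M_ne_zero hS.dvr
  obtain ⟨hg₁, hg₂⟩ := H216.goodRedHyp_of_dvr P E M hS.q_prime hS.q_not_dvd hAux.1 hAux.2
    hS.lies_over hS.dvr w VM hS.unif hVM
  obtain ⟨cf, hcf⟩ := S35.G.H862.exists_chart_cutBy hS (S35.G.H862.s1 P E M q w)
    (H142.s2 P E M q w) (S35.G.H862.s3 P E M q w) VM V W hVM hV hW _ _ (Or.inl ⟨rfl, rfl⟩) hg₁
  obtain ⟨hx, hfr, hconst⟩ := H31.deg E M q hq hS.q_not_dvd
  have hpos : 0 < Module.finrank
      (IntermediateField.adjoin E ({xE E M q} : Set (FE E (M * q))))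
      (FE E (M * q)) := by
    rw [hfr]
    have h1 := dedekindPsi_pos_of_ne_zero M (NeZero.ne M)
    positivity
  have hfin : FiniteDimensional
      (IntermediateField.adjoin E ({xE E M q} : Set (FE E (M * q))))
      (FE E (M * q)) := Module.finite_of_finrank_pos hpos
  exact ⟨⟨hS.unif, hx, hfin, hconst, fun _ => Iff.rfl⟩, cf, hcf⟩

/-- **E-slope from branch valuations**: with respect to ANY uniformiser `w = ε⁻¹ w₀`. -/
theorem slopeZero_of_valAt862 (w₀ w ε : RE P E) (hε : IsUnit ε) (h : w₀ = ε * w)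
    (hS₀ : Setting P E M q w₀)
    (V : ValuationSubring (FE E (M * q))) (W : FE E (M * q) ≃ₐ[E] FE E (M * q))
    (hV : IsVinf P E (M * q) V) (hW : IsFricke E (M * q) W)
    (cf : A2.SSChart w₀ (chartAlg P E (M * q) (xE E M q)))
    (hcf : S35.G.CutBy w₀ (chartAlg P E (M * q) (xE E M q)) cf V
      (V.comap (W : FE E (M * q) →+* FE E (M * q))))
    (g : FE E (M * q)) (v₁ v₂ : ℤ)
    (hv₁ : I6.ValAt (FE E (M * q)) cf.p₁
      (algebraMap ↥(RE P E) ↥(chartAlg P E (M * q) (xE E M q)) w₀) g v₁)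
    (hv₂ : I6.ValAt (FE E (M * q)) cf.p₂
      (algebraMap ↥(RE P E) ↥(chartAlg P E (M * q) (xE E M q)) w₀) g v₂) :
    UnitAt V (g * (algebraMap ↥(RE P E) ↥(FE E (M * q)) w ^ v₁)⁻¹) ∧
      UnitAt (V.comap (W : FE E (M * q) →+* FE E (M * q)))
        (g * (algebraMap ↥(RE P E) ↥(FE E (M * q)) w ^ v₂)⁻¹) := by
  have hN : M * q ≠ 0 := mul_ne_zero hS₀.M_ne_zero hS₀.q_prime.ne_zero
  obtain ⟨hunif, hVE, -⟩ := H553.vinfBasic P E w₀ (M * q) hN hS₀.dvr hS₀.unif V hV
  have hunif' := isUnif_comap862 P E (M * q) V W w₀ hunif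
  have hVE' := const_mem_comap862 P E (M * q) V W hVE
  have hu : UnitAt V (cE P E (M * q) ε) := unitAt_cE_of_isUnit862 P E (M * q) V hVE ε hε
  have hu' : UnitAt (V.comap (W : FE E (M * q) →+* FE E (M * q))) (cE P E (M * q) ε) :=
    unitAt_cE_of_isUnit862 P E (M * q) _ hVE' ε hε
  have hc0 : cE P E (M * q) w₀ = cE P E (M * q) ε * cE P E (M * q) w := by
    rw [h]
    show algebraMap E (FE E (M * q)) ((ε * w : RE P E) : E) = _
    rw [show ((ε * w : RE P E) : E) = (ε : E) * (w : E) from rfl, map_mul]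
    rfl
  have h1 : UnitAt V (g * (cE P E (M * q) w₀ ^ v₁)⁻¹) :=
    unitAt_of_valAt862 (chartAlg P E (M * q) (xE E M q)) cf.p₁ w₀ V hcf.le₁ hcf.cut₁ hunif g v₁ hv₁
  have h2 : UnitAt (V.comap (W : FE E (M * q) →+* FE E (M * q)))
      (g * (cE P E (M * q) w₀ ^ v₂)⁻¹) :=
    unitAt_of_valAt862 (chartAlg P E (M * q) (xE E M q)) cf.p₂ w₀ _ hcf.le₂ hcf.cut₂ hunif' g v₂ hv₂
  have key : ∀ v : ℤ, g * (cE P E (M * q) w ^ v)⁻¹ =
      g * (cE P E (M * q) w₀ ^ v)⁻¹ * cE P E (M * q) ε ^ v := by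
    intro v
    have hε0 : cE P E (M * q) ε ^ v ≠ 0 := zpow_ne_zero _ hu.1
    rw [hc0, mul_zpow, mul_inv, mul_assoc, mul_assoc]
    congr 1
    rw [mul_comm (cE P E (M * q) ε ^ v)⁻¹, mul_assoc, mul_inv_cancel₀ hε0, mul_one]
  refine ⟨?_, ?_⟩
  · show UnitAt V (g * (cE P E (M * q) w ^ v₁)⁻¹)
    rw [key v₁]
    exact unitAt_mul862 h1 (unitAt_zpow862 hu v₁)
  · show UnitAt _ (g * (cE P E (M * q) w ^ v₂)⁻¹)
    rw [key v₂]
    exact unitAt_mul862 h2 (unitAt_zpow862 hu' v₂)

/-- **SLOPE-CARD, E-form, any good unramified level `E`**, generic in the subgroups `I`, `F`. -/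
theorem slopeCardE_gen862 [NeZero (M * q)] (m : ℕ) (hm : 0 < m) (hq : q.Prime) (hqM : ¬ q ∣ M)
    (hAux : S35.G.HasAux M q) (hP : P.LiesOverPrime q) (hE : A2.GoodField P E)
    (w : RE P E) (hw : Irreducible w) (hU : S36.H803.Unram P E q w)
    (hTh1 : Th1At P E M q w)
    (V : ValuationSubring (FE E (M * q))) (W : FE E (M * q) ≃ₐ[E] FE E (M * q))
    (hV : IsVinf P E (M * q) V) (hW : IsFricke E (M * q) W)
    (F I : AddSubgroup (JZero (M * q)))
    (hgen : ∀ x ∈ I, ∃ y : FE E (M * q), y ≠ 0 ∧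
      IsKummerGen (M * q) m (iota E (modularFunctionFieldFull (M * q)) y) x ∧
      A2.DivisibleDiv E m y)
    (hF : ∀ z ∈ I, (∃ g : FE E (M * q),
        (g ≠ 0 ∧ ∃ D : Divisor.degZero (K := AlgebraicClosure ℚ)
            (F := modularFunctionFieldBar (M * q)),
          Pic0.mk D = z ∧ ∀ v : Place (AlgebraicClosure ℚ) (modularFunctionFieldBar (M * q)),
            v.ord (iota E (modularFunctionFieldFull (M * q)) g) =
              (m : ℤ) * (D : Divisor (AlgebraicClosure ℚ) (modularFunctionFieldBar (M * q))) v) ∧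
        A2.DivisibleDiv E m g ∧
        ∃ a₁ a₃ : ℤ, UnitAt V (g * (algebraMap ↥(RE P E) ↥(FE E (M * q)) w ^ a₁)⁻¹) ∧
          UnitAt (V.comap (W : FE E (M * q) →+* FE E (M * q)))
            (g * (algebraMap ↥(RE P E) ↥(FE E (M * q)) w ^ a₃)⁻¹) ∧
          (m : ℤ) ∣ a₁ - a₃) → z ∈ F) :
    Nat.card I ≤ ((q - 1) * dedekindPsi M) * Nat.card ↥(F ⊓ I) := by
  haveI : IsDiscreteValuationRing ↥(RE P E) := hE.dvr
  haveI : NeZero (q * M) := ⟨mul_ne_zero hq.ne_zero (NeZero.ne M)⟩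
  have hN : M * q ≠ 0 := mul_ne_zero (NeZero.ne M) hq.ne_zero
  obtain ⟨ε, hε, hqw⟩ := hU
  have hw₀ : Irreducible (((q : ℕ) : RE P E)) := by
    rw [hqw]
    exact (irreducible_isUnit_mul hε).mpr hw
  have hS₀ : Setting P E M q ((q : ℕ) : RE P E) :=
    Fermat.Agent.Ribet.H862.setting_of_goodField hq hqM (NeZero.ne M) hP hE hw₀
  have hwq : ((((q : ℕ) : RE P E)) : E) = (q : E) := by simp
  have hTh1₀ : Th1At P E M q ((q : ℕ) : RE P E) :=
    th1At_of_assoc862 P E M q hE.dvr w _ ε hw hε hqw hN hTh1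
  obtain ⟨hB, cf, hcf⟩ := exists_chart_cut862 P E M q _ hS₀ hE hAux V W hV hW
  have key : ∀ x : I, ∃ (g : FE E (M * q)) (v₁ v₂ : ℤ), g ≠ 0 ∧
      A2.DivisibleDiv E m g ∧
      IsKummerGen (M * q) m (iota E (modularFunctionFieldFull (M * q)) g)
        (x : JZero (M * q)) ∧
      I6.ValAt (FE E (M * q)) cf.p₁
        (algebraMap ↥(RE P E) ↥(chartAlg P E (M * q) (xE E M q)) ((q : ℕ) : RE P E)) g v₁ ∧
      I6.ValAt (FE E (M * q)) cf.p₂
        (algebraMap ↥(RE P E) ↥(chartAlg P E (M * q) (xE E M q)) ((q : ℕ) : RE P E)) g v₂ := by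
    intro x
    obtain ⟨g, hg0, hgK, hgdiv⟩ := hgen x x.2
    obtain ⟨v₁, v₂, h1, h2⟩ := exists_valAt_chart (E := E) _ (xE E M q)
      (chartAlg P E (M * q) (xE E M q)) hB cf g hg0
    exact ⟨g, v₁, v₂, hg0, hgdiv, hgK, h1, h2⟩
  choose g v₁ v₂ hg0 hgdiv hgK hv₁ hv₂ using key
  have hs : 0 < (q - 1) * dedekindPsi M :=
    Nat.mul_pos (Nat.sub_pos_of_lt hq.one_lt) (dedekindPsi_pos_of_ne_zero M (NeZero.ne M))
  refine card_le_mul_of_slope862 I F m hm _ hs (fun x => v₁ x - v₂ x) (fun x => ?_)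
    (fun x y hxy => ?_)
  · have hdivK₀ : ∀ v : Place Kbar (FF (M * q)),
        (m : ℤ) ∣ v.ord (iota E (modularFunctionFieldFull (M * q)) (g x)) := by
      obtain ⟨-, D, -, hD⟩ := hgK x
      exact fun v => ⟨_, hD v⟩
    have hdivK := dvd_ord_toFF_of_iota862 E (Nat.mul_comm M q) m (g x) hdivK₀
    exact nodeRelE m q M hm hq hqM hAux P hP E _ hS₀ hE hwq hTh1₀ cf (g x) (hg0 x)
      (hgdiv x) hdivK (v₁ x) (v₂ x) (hv₁ x) (hv₂ x)
  · have hmem : (x : JZero (M * q)) - (y : JZero (M * q)) ∈ I := I.sub_mem x.2 y.2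
    have hmul := valAt_mul_inv_chart862 (E := E) _ (xE E M q)
      (chartAlg P E (M * q) (xE E M q)) hB cf (g x) (g y) (v₁ x) (v₁ y) (v₂ x) (v₂ y)
      (hv₁ x) (hv₁ y) (hv₂ x) (hv₂ y)
    have hK : IsKummerGen (M * q) m
        (iota E (modularFunctionFieldFull (M * q)) (g x * (g y)⁻¹))
        ((x : JZero (M * q)) - (y : JZero (M * q))) := by
      rw [map_mul, map_inv₀, sub_eq_add_neg]
      exact (hgK x).mul (hgK y).inv
    have hg0' : g x * (g y)⁻¹ ≠ 0 := mul_ne_zero (hg0 x) (inv_ne_zero (hg0 y))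
    obtain ⟨hu₁, hu₂⟩ := slopeZero_of_valAt862 P E M q _ w ε hε hqw hS₀ V W hV hW cf hcf
      (g x * (g y)⁻¹) (v₁ x - v₁ y) (v₂ x - v₂ y) hmul.1 hmul.2
    refine hF _ hmem ⟨g x * (g y)⁻¹, ⟨hg0', hK.2⟩,
      Fermat.Agent.A2.Alg.H34.divisibleDiv_mul_inv m (g x) (g y) (hgdiv x) (hgdiv y),
      v₁ x - v₁ y, v₂ x - v₂ y, hu₁, hu₂, ?_⟩
    have e : v₁ x - v₁ y - (v₂ x - v₂ y) = (v₁ x - v₂ x) - (v₁ y - v₂ y) := by ring
    rw [e]
    exact hxy

/-- **SLOPE-CARD, E-form, at the inertia field** `E = ℚ̄^{I_P}` (written as the fixed field): for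
EVERY exponent `m > 0`, every subgroup `I` of inertia-fixed `m`-torsion classes of `J₀(M q)` and
every subgroup `F` containing the E-slope-zero classes of `I`,
`|I| ≤ (q - 1) ψ(M) · |F ⊓ I|`. -/
theorem slopeCardE862 [NeZero (M * q)] (m : ℕ) (hm : 0 < m) (hq : q.Prime) (hqM : ¬ q ∣ M)
    (hAux : S35.G.HasAux M q) (hP : P.LiesOverPrime q)
    (w : RE P (IntermediateField.fixedField (P.inertiaSubgroupIn ℚ))) (hw : Irreducible w)
    (hTh1 : Th1At P (IntermediateField.fixedField (P.inertiaSubgroupIn ℚ)) M q w)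
    (V : ValuationSubring (FE (IntermediateField.fixedField (P.inertiaSubgroupIn ℚ)) (M * q)))
    (W : FE (IntermediateField.fixedField (P.inertiaSubgroupIn ℚ)) (M * q) ≃ₐ[
      IntermediateField.fixedField (P.inertiaSubgroupIn ℚ)]
      FE (IntermediateField.fixedField (P.inertiaSubgroupIn ℚ)) (M * q))
    (hV : IsVinf P (IntermediateField.fixedField (P.inertiaSubgroupIn ℚ)) (M * q) V)
    (hW : IsFricke (IntermediateField.fixedField (P.inertiaSubgroupIn ℚ)) (M * q) W)
    (F I : AddSubgroup (JZero (M * q)))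
    (hI : ∀ x ∈ I, m • x = 0)
    (hfix : ∀ x ∈ I, ∀ σ ∈ P.inertiaSubgroupIn ℚ, σ • x = x)
    (hF : ∀ z ∈ I, (∃ g : FE (IntermediateField.fixedField (P.inertiaSubgroupIn ℚ)) (M * q),
        (g ≠ 0 ∧ ∃ D : Divisor.degZero (K := AlgebraicClosure ℚ)
            (F := modularFunctionFieldBar (M * q)),
          Pic0.mk D = z ∧ ∀ v : Place (AlgebraicClosure ℚ) (modularFunctionFieldBar (M * q)),
            v.ord (iota (IntermediateField.fixedField (P.inertiaSubgroupIn ℚ))
                (modularFunctionFieldFull (M * q)) g) =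
              (m : ℤ) * (D : Divisor (AlgebraicClosure ℚ) (modularFunctionFieldBar (M * q))) v) ∧
        A2.DivisibleDiv (IntermediateField.fixedField (P.inertiaSubgroupIn ℚ)) m g ∧
        ∃ a₁ a₃ : ℤ,
          UnitAt V (g * (algebraMap
            ↥(RE P (IntermediateField.fixedField (P.inertiaSubgroupIn ℚ)))
            ↥(FE (IntermediateField.fixedField (P.inertiaSubgroupIn ℚ)) (M * q)) w ^ a₁)⁻¹) ∧
          UnitAt (V.comap (W : FE (IntermediateField.fixedField (P.inertiaSubgroupIn ℚ)) (M * q)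
              →+* FE (IntermediateField.fixedField (P.inertiaSubgroupIn ℚ)) (M * q)))
            (g * (algebraMap
              ↥(RE P (IntermediateField.fixedField (P.inertiaSubgroupIn ℚ)))
              ↥(FE (IntermediateField.fixedField (P.inertiaSubgroupIn ℚ)) (M * q)) w ^ a₃)⁻¹) ∧
          (m : ℤ) ∣ a₁ - a₃) → z ∈ F) :
    Nat.card I ≤ ((q - 1) * dedekindPsi M) * Nat.card ↥(F ⊓ I) := by
  have hE : A2.GoodField P (IntermediateField.fixedField (P.inertiaSubgroupIn ℚ)) :=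
    goodField_inertiaField P q hq hP
  haveI : IsDiscreteValuationRing
      ↥(RE P (IntermediateField.fixedField (P.inertiaSubgroupIn ℚ))) := hE.dvr
  have hS₀ : Setting P (IntermediateField.fixedField (P.inertiaSubgroupIn ℚ)) M q
      ((q : ℕ) : RE P (IntermediateField.fixedField (P.inertiaSubgroupIn ℚ))) :=
    setting_inertiaField P q M hq hqM (NeZero.ne M) hP
  have hU : S36.H803.Unram P (IntermediateField.fixedField (P.inertiaSubgroupIn ℚ)) q w := by
    obtain ⟨u, hu⟩ := IsDiscreteValuationRing.associated_of_irreducible _ hw hS₀.unif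
    exact ⟨(u : RE P (IntermediateField.fixedField (P.inertiaSubgroupIn ℚ))), u.isUnit, by
      rw [← hu, mul_comm]⟩
  exact slopeCardE_gen862 P (IntermediateField.fixedField (P.inertiaSubgroupIn ℚ)) M q m hm hq hqM
    hAux hP hE w hw hU hTh1 V W hV hW F I
    (fun x hx => by
      obtain ⟨y, hy0, hkum, hdiv⟩ := exists_fixed_kummerGen_aux (M * q) m P x (hI x hx)
        (hfix x hx)
      exact ⟨y, hy0, hkum, hdiv⟩) hF

end Level

end Fermat.Agent.S59.LoSqC.H862

end
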